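/-
S48 (Deligne–Serre), block Cheb (helper8): "Dirichlet's theorem over a totally complex number
field `K`" for the norm residues modulo `m`.  If `H ≤ (ℤ/m)ˣ` contains the norm residues of all
primes outside a finite set `S`, every element of `H` is the norm residue of an ideal, and the
primes with `N q ≡ 1` have mass `≥ (1/|H|) log (1/(s-1)) - O(1)`, then for EVERY `a ∈ H` the primes
of degree one with `N q ≡ a` have mass `≥ (1/|H|) log (1/(s-1)) - O(1)`.
-/
import Fermat.Agent.S48lib.Cheb.NormLSeries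
import Fermat.Agent.S31lib.WeakChebNF
import Fermat.Agent.ExtVan.SecondIneq.IndexBound

set_option autoImplicit false
set_option linter.unusedSectionVars false
set_option linter.style.haveILetI false

noncomputable section

namespace Fermat.Agent.S48lib.Cheb

open NumberField IsDedekindDomain Ideal nonZeroDivisors Filter Topology Finset
open Fermat.Agent.ExtVan Fermat.Agent.ExtVan.SecondIneq Fermat.Agent.ExtVan.SecondIneq.LS
open Fermat.Agent.ExtVan.DegOne Fermat.Agent.S31lib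
open scoped Classical

variable (K : Type*) [Field K] [NumberField K] {m : ℕ} [NeZero m]

/-- the primes outside `S` of absolute degree one. -/
def goodPrimes (S : Finset (HeightOneSpectrum (𝓞 K))) : Set (HeightOneSpectrum (𝓞 K)) :=
  {q | q ∉ S ∧ (absNorm q.asIdeal).Prime}

/-- the primes outside `S`, of absolute degree one, with norm `≡ a mod m`. -/
def resPrimes (S : Finset (HeightOneSpectrum (𝓞 K))) (a : ZMod m) :
    Set (HeightOneSpectrum (𝓞 K)) :=
  {q | q ∉ S ∧ (absNorm q.asIdeal).Prime ∧ ((absNorm q.asIdeal : ℕ) : ZMod m) = a}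

/-- the constant bounding the mass of the primes of degree `≥ 2`. -/
def degTwoConst : ℝ := (Module.finrank ℚ K : ℝ) * ∑' n : ℕ, 1 / (n : ℝ) ^ 2

/-- the mass of the complement of `goodPrimes S` is bounded. -/
theorem tsum_indicator_compl_goodPrimes_le (S : Finset (HeightOneSpectrum (𝓞 K))) {s : ℝ}
    (hs : 1 < s) :
    ∑' q, ((goodPrimes K S)ᶜ).indicator (wt s) q ≤ S.card + degTwoConst K := by
  set X2 : Set (HeightOneSpectrum (𝓞 K)) := (S : Set (HeightOneSpectrum (𝓞 K))) with hX2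
  set X3 : Set (HeightOneSpectrum (𝓞 K)) := {q | ¬ (absNorm q.asIdeal).Prime} with hX3
  have hpt : ∀ q, ((goodPrimes K S)ᶜ).indicator (wt s) q ≤
      X2.indicator (wt s) q + X3.indicator (wt s) q := by
    intro q
    have n2 := Set.indicator_nonneg (s := X2) (f := wt s) (fun q _ => wt_nonneg s q) q
    have n3 := Set.indicator_nonneg (s := X3) (f := wt s) (fun q _ => wt_nonneg s q) q
    by_cases hq : q ∈ (goodPrimes K S)ᶜ
    · rw [Set.indicator_of_mem hq]
      by_cases hqS : q ∈ S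
      · rw [Set.indicator_of_mem (show q ∈ X2 from hqS)]
        linarith
      · have hqp : ¬ (absNorm q.asIdeal).Prime := fun hp => hq ⟨hqS, hp⟩
        rw [Set.indicator_of_mem (show q ∈ X3 from hqp)]
        linarith
    · rw [Set.indicator_of_notMem hq]
      linarith
  have hs2 := summable_indicator_wt X2 hs
  have hs3 := summable_indicator_wt X3 hs
  have hle := (summable_indicator_wt ((goodPrimes K S)ᶜ) hs).tsum_le_tsum hpt (hs2.add hs3)
  rw [hs2.tsum_add hs3] at hle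
  have h2 : ∑' q, X2.indicator (wt s) q ≤ S.card := by
    refine tsum_indicator_le X2 hs _ fun A hA => ?_
    calc ∑ q ∈ A, wt s q ≤ ∑ q ∈ A, (1 : ℝ) :=
          Finset.sum_le_sum fun q _ => rpow_neg_le_one q (by linarith)
      _ = (A.card : ℝ) := by simp
      _ ≤ S.card := by
          have : A ⊆ S := fun q hq => hA q hq
          exact_mod_cast Finset.card_le_card this
  have h3 : ∑' q, X3.indicator (wt s) q ≤ degTwoConst K :=
    tsum_indicator_le X3 hs _ fun A hA => sum_not_prime_le A hA hs.le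
  linarith

/-- restricting a prime sum to `goodPrimes S` changes it by a bounded amount. -/
theorem norm_tsum_sub_tsum_indicator_le (S : Finset (HeightOneSpectrum (𝓞 K))) {s : ℝ}
    (hs : 1 < s) (g : HeightOneSpectrum (𝓞 K) → ℂ) (hg : ∀ q, ‖g q‖ ≤ wt s q) :
    ‖∑' q, g q - ∑' q, (goodPrimes K S).indicator g q‖ ≤ S.card + degTwoConst K := by
  have hsum : Summable g := Summable.of_norm_bounded (summable_wt (K := K) hs) hg
  have hsumi : Summable ((goodPrimes K S).indicator g) := hsum.indicator _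
  have hsumc : Summable (((goodPrimes K S)ᶜ).indicator g) := hsum.indicator _
  have h1 : ∑' q, g q - ∑' q, (goodPrimes K S).indicator g q =
      ∑' q, ((goodPrimes K S)ᶜ).indicator g q := by
    rw [← hsum.tsum_sub hsumi]
    refine tsum_congr fun q => ?_
    by_cases hq : q ∈ goodPrimes K S
    · rw [Set.indicator_of_mem hq, Set.indicator_of_notMem
        (show q ∉ (goodPrimes K S)ᶜ from fun h => h hq), sub_self]
    · rw [Set.indicator_of_notMem hq, Set.indicator_of_mem (show q ∈ (goodPrimes K S)ᶜ from hq),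
        sub_zero]
  rw [h1]
  refine (tsum_of_norm_bounded (summable_indicator_wt ((goodPrimes K S)ᶜ) hs).hasSum
    fun q => ?_).trans (tsum_indicator_compl_goodPrimes_le K S hs)
  by_cases hq : q ∈ (goodPrimes K S)ᶜ
  · rw [Set.indicator_of_mem hq, Set.indicator_of_mem hq]; exact hg q
  · rw [Set.indicator_of_notMem hq, Set.indicator_of_notMem hq, norm_zero]

/-- the mass of `goodPrimes S` is `log (1/(s-1)) + O(1)`. -/
theorem exists_bound_goodPrimes (S : Finset (HeightOneSpectrum (𝓞 K))) :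
    ∃ B : ℝ, ∀ s ∈ Set.Ioc (1 : ℝ) 2,
      |∑' q, (goodPrimes K S).indicator (wt s) q - Real.log (1 / (s - 1))| ≤ B := by
  obtain ⟨B, hB⟩ := exists_bound_primeSum K
  refine ⟨B + (S.card + degTwoConst K), fun s hs => ?_⟩
  have h1 := hB s hs
  have hsum : Summable (wt (K := K) s) := summable_wt hs.1
  have hsumi := summable_indicator_wt (goodPrimes K S) hs.1
  have hsumc := summable_indicator_wt ((goodPrimes K S)ᶜ) hs.1
  have h2 : ∑' q : HeightOneSpectrum (𝓞 K), wt s q =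
      ∑' q, (goodPrimes K S).indicator (wt s) q +
      ∑' q, ((goodPrimes K S)ᶜ).indicator (wt s) q := by
    rw [← hsumi.tsum_add hsumc]
    refine tsum_congr fun q => ?_
    by_cases hq : q ∈ goodPrimes K S
    · rw [Set.indicator_of_mem hq, Set.indicator_of_notMem
        (show q ∉ (goodPrimes K S)ᶜ from fun h => h hq), add_zero]
    · rw [Set.indicator_of_notMem hq, Set.indicator_of_mem (show q ∈ (goodPrimes K S)ᶜ from hq),
        zero_add]
  have h3 := tsum_indicator_compl_goodPrimes_le K S hs.1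
  have h4 : 0 ≤ ∑' q, ((goodPrimes K S)ᶜ).indicator (wt s) q :=
    tsum_nonneg fun q => Set.indicator_nonneg (fun q _ => wt_nonneg s q) q
  have h5 : ∑' v : HeightOneSpectrum (𝓞 K), primeNorm v ^ (-s) =
      ∑' q : HeightOneSpectrum (𝓞 K), wt s q := rfl
  rw [h5, h2] at h1
  rw [abs_le] at h1 ⊢
  constructor <;> linarith [h1.1, h1.2]

/-! ### Characters of `H` and orthogonality -/

lemma normChar_prime (χ : MulChar (ZMod m) ℂ) (v : HeightOneSpectrum (𝓞 K)) :
    normChar K χ v.asIdeal = χ (((absNorm v.asIdeal : ℕ) : ZMod m)) := by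
  have h : v.asIdeal ∈ (Ideal (𝓞 K))⁰ := by
    rw [mem_nonZeroDivisors_iff_ne_zero]
    exact v.ne_bot
  rw [normChar_apply_of_mem K χ h]
  rfl

section chars

variable (H : Subgroup (ZMod m)ˣ)

lemma exists_ext (ψ : H →* ℂˣ) : ∃ χ' : (ZMod m)ˣ →* ℂˣ, ∀ h : H, χ' h = ψ h := by
  have := hasEnoughRootsOfUnity_complex (Q := (ZMod m)ˣ)
  obtain ⟨χ', hχ'⟩ := MonoidHom.domRestrict_surjective ℂ H ψ
  exact ⟨χ', fun h => by rw [← hχ']; rfl⟩

/-- an extension to a Dirichlet character modulo `m` of a character of `H`. -/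
def extChar (ψ : H →* ℂˣ) : MulChar (ZMod m) ℂ := MulChar.ofUnitHom (exists_ext H ψ).choose

lemma extChar_coe (ψ : H →* ℂˣ) (h : (ZMod m)ˣ) (hh : h ∈ H) :
    extChar H ψ (h : ZMod m) = ((ψ ⟨h, hh⟩ : ℂˣ) : ℂ) := by
  unfold extChar
  rw [MulChar.ofUnitHom_coe]
  exact congrArg _ ((exists_ext H ψ).choose_spec ⟨h, hh⟩)

variable (S : Finset (HeightOneSpectrum (𝓞 K)))

/-- the prime sum of `extChar H ψ` restricted to the primes of degree one outside `S`. -/
def resSum (ψ : H →* ℂˣ) (s : ℝ) : ℂ :=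
  ∑' q, (goodPrimes K S).indicator (localTerm K (extChar H ψ) s) q

lemma norm_normPrimeSum_sub_resSum_le (ψ : H →* ℂˣ) {s : ℝ} (hs : 1 < s) :
    ‖normPrimeSum K (extChar H ψ) s - resSum K H S ψ s‖ ≤ S.card + degTwoConst K :=
  norm_tsum_sub_tsum_indicator_le K S hs _ (norm_localTerm_le K (extChar H ψ) s)

lemma summable_resSum (ψ : H →* ℂˣ) {s : ℝ} (hs : 1 < s) :
    Summable ((goodPrimes K S).indicator (localTerm K (extChar H ψ) s)) :=
  (summable_localTerm K (extChar H ψ) hs).indicator _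

variable {K H S}

/-- the value of the local term at a good prime. -/
lemma localTerm_extChar_of_mem (ψ : H →* ℂˣ) (s : ℝ) {q : HeightOneSpectrum (𝓞 K)}
    {h : (ZMod m)ˣ} (hh : h ∈ H)
    (hq : ((h : (ZMod m)ˣ) : ZMod m) = ((absNorm q.asIdeal : ℕ) : ZMod m)) :
    localTerm K (extChar H ψ) s q = ((ψ ⟨h, hh⟩ : ℂˣ) : ℂ) * ((wt s q : ℝ) : ℂ) := by
  unfold localTerm
  rw [normChar_prime, ← hq, extChar_coe H ψ h hh]

/-- **orthogonality**: the masses of the residue classes in terms of the restricted prime sums. -/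
theorem sum_inv_mul_resSum [Fintype (H →* ℂˣ)]
    (h1 : ∀ q : HeightOneSpectrum (𝓞 K), q ∉ S →
      ∃ h ∈ H, ((h : (ZMod m)ˣ) : ZMod m) = ((absNorm q.asIdeal : ℕ) : ZMod m))
    (a : (ZMod m)ˣ) (ha : a ∈ H) {s : ℝ} (hs : 1 < s) :
    ∑ ψ : H →* ℂˣ, (((ψ ⟨a, ha⟩)⁻¹ : ℂˣ) : ℂ) * resSum K H S ψ s =
      (((Nat.card H : ℝ) * ∑' q, (resPrimes K S (a : ZMod m)).indicator (wt s) q : ℝ) : ℂ) := by
  unfold resSum
  simp_rw [← tsum_mul_left]
  rw [← Summable.tsum_finsetSum fun ψ _ => (summable_resSum K H S ψ hs).mul_left _]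
  rw [Complex.ofReal_tsum]
  refine tsum_congr fun q => ?_
  by_cases hq : q ∈ goodPrimes K S
  · obtain ⟨h, hh, hhq⟩ := h1 q hq.1
    simp_rw [Set.indicator_of_mem hq, localTerm_extChar_of_mem _ s hh hhq]
    have h2 : ∀ ψ : H →* ℂˣ, (((ψ ⟨a, ha⟩)⁻¹ : ℂˣ) : ℂ) *
        (((ψ ⟨h, hh⟩ : ℂˣ) : ℂ) * ((wt s q : ℝ) : ℂ)) =
        ((ψ (⟨a, ha⟩⁻¹ * ⟨h, hh⟩ : H) : ℂˣ) : ℂ) * ((wt s q : ℝ) : ℂ) := fun ψ => by
      rw [map_mul, map_inv, Units.val_mul, mul_assoc]
    simp_rw [h2]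
    rw [← Finset.sum_mul, sum_unitsChar_apply]
    by_cases hah : h = a
    · subst hah
      rw [if_pos (inv_mul_cancel _), Set.indicator_of_mem (show q ∈ resPrimes K S (h : ZMod m) from
        ⟨hq.1, hq.2, hhq.symm⟩)]
      push_cast
      ring
    · have hne : (⟨a, ha⟩⁻¹ * ⟨h, hh⟩ : H) ≠ 1 := by
        intro h0
        apply hah
        have := inv_mul_eq_one.mp h0
        exact (congrArg Subtype.val this).symm
      have hnot : q ∉ resPrimes K S (a : ZMod m) := by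
        rintro ⟨-, -, h3⟩
        apply hah
        apply Units.ext
        rw [hhq, h3]
      rw [if_neg hne, zero_mul, Set.indicator_of_notMem hnot]
      simp
  · have hnot : q ∉ resPrimes K S (a : ZMod m) := fun h => hq ⟨h.1, h.2.1⟩
    simp_rw [Set.indicator_of_notMem hq, Set.indicator_of_notMem hnot]
    simp

end chars

/-! ### The theorem -/

section main

variable [IsTotallyComplex K] (H : Subgroup (ZMod m)ˣ) (S : Finset (HeightOneSpectrum (𝓞 K)))

variable {K}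

/-- Weber's bound for the extension of a nontrivial character of `H`. -/
lemma exists_bound_sum_idealChar_extChar
    (h2 : ∀ h ∈ H, ∃ 𝔞 : (Ideal (𝓞 K))⁰,
      ((absNorm (𝔞 : Ideal (𝓞 K)) : ℕ) : ZMod m) = ((h : (ZMod m)ˣ) : ZMod m))
    {ψ : H →* ℂˣ} (hψ : ψ ≠ 1) :
    ∃ B : ℝ, 0 ≤ B ∧ ∀ n : ℕ, 1 ≤ n →
      ‖∑ I ∈ idealsLE K n, idealChar (extChar H ψ) I‖ ≤ B * (n : ℝ) ^ theta K := by
  obtain ⟨h, hh⟩ : ∃ h : H, ψ h ≠ 1 := by
    by_contra hcon
    push Not at hcon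
    exact hψ (MonoidHom.ext fun h => by rw [hcon h, MonoidHom.one_apply])
  obtain ⟨𝔞, h𝔞⟩ := h2 h.1 h.2
  have hval : idealChar (extChar H ψ) 𝔞 = ((ψ h : ℂˣ) : ℂ) := by
    unfold idealChar
    rw [h𝔞, extChar_coe H ψ h.1 h.2]
  refine exists_bound_sum_idealChar (extChar H ψ) ⟨𝔞, ?_, ?_⟩
  · rw [hval]; exact Units.ne_zero _
  · rw [hval]
    intro h0
    exact hh (Units.ext h0)

lemma norm_units_char_eq_one (ψ : H →* ℂˣ) (x : H) : ‖((ψ x : ℂˣ) : ℂ)‖ = 1 :=
  norm_monoidHom_eq_one ((Units.coeHom ℂ).comp ψ) x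

/-- the restricted prime sum of the trivial character is the mass of the good primes. -/
lemma resSum_one
    (h1 : ∀ q : HeightOneSpectrum (𝓞 K), q ∉ S →
      ∃ h ∈ H, ((h : (ZMod m)ˣ) : ZMod m) = ((absNorm q.asIdeal : ℕ) : ZMod m)) (s : ℝ) :
    resSum K H S 1 s = ((∑' q, (goodPrimes K S).indicator (wt s) q : ℝ) : ℂ) := by
  unfold resSum
  rw [Complex.ofReal_tsum]
  refine tsum_congr fun q => ?_
  by_cases hq : q ∈ goodPrimes K S
  · obtain ⟨h, hh, hhq⟩ := h1 q hq.1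
    rw [Set.indicator_of_mem hq, Set.indicator_of_mem hq, localTerm_extChar_of_mem _ s hh hhq,
      MonoidHom.one_apply, Units.val_one, one_mul]
  · rw [Set.indicator_of_notMem hq, Set.indicator_of_notMem hq, Complex.ofReal_zero]

/-- upper bound for the real part of the restricted prime sum of a nontrivial character. -/
lemma exists_upper_bound_resSum_re
    (h2 : ∀ h ∈ H, ∃ 𝔞 : (Ideal (𝓞 K))⁰,
      ((absNorm (𝔞 : Ideal (𝓞 K)) : ℕ) : ZMod m) = ((h : (ZMod m)ˣ) : ZMod m))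
    {ψ : H →* ℂˣ} (hψ : ψ ≠ 1) :
    ∃ B : ℝ, ∀ s ∈ Set.Ioc (1 : ℝ) 2, (resSum K H S ψ s).re ≤ B := by
  obtain ⟨B, hB⟩ := exists_upper_bound_normPrimeSum_re K (extChar H ψ)
    (exists_bound_sum_idealChar_extChar H h2 hψ)
  refine ⟨B + (S.card + degTwoConst K), fun s hs => ?_⟩
  have h3 := norm_normPrimeSum_sub_resSum_le K H S ψ hs.1
  have h4 : |(normPrimeSum K (extChar H ψ) s - resSum K H S ψ s).re| ≤ S.card + degTwoConst K :=
    (Complex.abs_re_le_norm _).trans h3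
  rw [Complex.sub_re] at h4
  have := (abs_le.mp h4).1
  linarith [hB s hs]

variable
    (h1 : ∀ q : HeightOneSpectrum (𝓞 K), q ∉ S →
      ∃ h ∈ H, ((h : (ZMod m)ˣ) : ZMod m) = ((absNorm q.asIdeal : ℕ) : ZMod m))
    (h2 : ∀ h ∈ H, ∃ 𝔞 : (Ideal (𝓞 K))⁰,
      ((absNorm (𝔞 : Ideal (𝓞 K)) : ℕ) : ZMod m) = ((h : (ZMod m)ˣ) : ZMod m))
    (h3 : ∃ B₀ : ℝ, ∀ s ∈ Set.Ioc (1 : ℝ) 2,
      (1 / (Nat.card H : ℝ)) * Real.log (1 / (s - 1)) - B₀ ≤
        ∑' q, (resPrimes K S (1 : ZMod m)).indicator (wt s) q)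

include h1 h2 h3 in
/-- lower bound for the real part of the restricted prime sum of a nontrivial character: this is
the non-vanishing of `L(1, χ ∘ N)`. -/
lemma exists_lower_bound_resSum_re {ψ₁ : H →* ℂˣ} (hψ₁ : ψ₁ ≠ 1) :
    ∃ B : ℝ, ∀ s ∈ Set.Ioc (1 : ℝ) 2, -B ≤ (resSum K H S ψ₁ s).re := by
  haveI : Fintype (H →* ℂˣ) := Fintype.ofFinite _
  obtain ⟨B₀, hB₀⟩ := h3
  obtain ⟨B₁, hB₁⟩ := exists_bound_goodPrimes K S
  have hup : ∀ ψ : H →* ℂˣ, ∃ B : ℝ, ψ ≠ 1 → ∀ s ∈ Set.Ioc (1 : ℝ) 2,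
      (resSum K H S ψ s).re ≤ B := by
    intro ψ
    by_cases hψ : ψ = 1
    · exact ⟨0, fun h => absurd hψ h⟩
    · obtain ⟨B, hB⟩ := exists_upper_bound_resSum_re H S h2 hψ
      exact ⟨B, fun _ => hB⟩
  choose B' hB' using hup
  have hcard : (0 : ℝ) < (Nat.card H : ℝ) := by exact_mod_cast Nat.card_pos
  refine ⟨(Nat.card H : ℝ) * B₀ + B₁ + ∑ ψ : H →* ℂˣ, |B' ψ|, fun s hs => ?_⟩
  have horth := sum_inv_mul_resSum h1 1 H.one_mem hs.1
  have hone : ∀ ψ : H →* ℂˣ, (((ψ ⟨1, H.one_mem⟩)⁻¹ : ℂˣ) : ℂ) = 1 := fun ψ => by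
    have : (⟨1, H.one_mem⟩ : H) = 1 := rfl
    rw [this, map_one, inv_one, Units.val_one]
  simp_rw [hone, one_mul] at horth
  have hre := congrArg Complex.re horth
  rw [Complex.re_sum, Complex.ofReal_re] at hre
  -- split the sum
  set g : (H →* ℂˣ) → ℝ := fun ψ => (resSum K H S ψ s).re with hg
  have hsplit : ∑ ψ : H →* ℂˣ, g ψ = g ψ₁ + (g 1 +
      ∑ ψ ∈ (Finset.univ.erase ψ₁).erase 1, g ψ) := by
    rw [← Finset.add_sum_erase Finset.univ g (Finset.mem_univ ψ₁),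
      ← Finset.add_sum_erase (Finset.univ.erase ψ₁) g
        (Finset.mem_erase.mpr ⟨fun h => hψ₁ h.symm, Finset.mem_univ _⟩)]
  have hg1 : g 1 ≤ Real.log (1 / (s - 1)) + B₁ := by
    rw [hg]
    simp only
    rw [resSum_one H S h1 s, Complex.ofReal_re]
    have := (abs_le.mp (hB₁ s hs)).2
    linarith
  have hrest : ∑ ψ ∈ (Finset.univ.erase ψ₁).erase 1, g ψ ≤ ∑ ψ : H →* ℂˣ, |B' ψ| := by
    calc ∑ ψ ∈ (Finset.univ.erase ψ₁).erase 1, g ψ
        ≤ ∑ ψ ∈ (Finset.univ.erase ψ₁).erase 1, |B' ψ| := by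
          refine Finset.sum_le_sum fun ψ hψ => ?_
          have hψ1 : ψ ≠ 1 := (Finset.mem_erase.mp hψ).1
          exact (hB' ψ hψ1 s hs).trans (le_abs_self _)
      _ ≤ ∑ ψ : H →* ℂˣ, |B' ψ| :=
          Finset.sum_le_sum_of_subset_of_nonneg (Finset.subset_univ _)
            fun ψ _ _ => abs_nonneg _
  have hmass := hB₀ s hs
  have h5 : (Nat.card H : ℝ) * ((1 / (Nat.card H : ℝ)) * Real.log (1 / (s - 1)) - B₀) ≤
      (Nat.card H : ℝ) * ∑' q, (resPrimes K S (1 : ZMod m)).indicator (wt s) q :=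
    mul_le_mul_of_nonneg_left hmass hcard.le
  have h6 : (Nat.card H : ℝ) * ((1 / (Nat.card H : ℝ)) * Real.log (1 / (s - 1)) - B₀) =
      Real.log (1 / (s - 1)) - (Nat.card H : ℝ) * B₀ := by
    field_simp
  have h7 : (((1 : (ZMod m)ˣ) : (ZMod m)ˣ) : ZMod m) = 1 := Units.val_one
  rw [h7] at hre
  rw [hsplit] at hre
  show -((Nat.card H : ℝ) * B₀ + B₁ + ∑ ψ : H →* ℂˣ, |B' ψ|) ≤ g ψ₁
  linarith

include h1 h2 h3 in
/-- the restricted prime sum of a nontrivial character is bounded on `(1, 2]`. -/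
lemma exists_bound_norm_resSum {ψ₁ : H →* ℂˣ} (hψ₁ : ψ₁ ≠ 1) :
    ∃ C : ℝ, ∀ s ∈ Set.Ioc (1 : ℝ) 2, ‖resSum K H S ψ₁ s‖ ≤ C := by
  obtain ⟨B, hB⟩ := exists_lower_bound_resSum_re H S h1 h2 h3 hψ₁
  have hW := exists_bound_sum_idealChar_extChar H h2 hψ₁
  set D : ℝ := B + (S.card + degTwoConst K) + primeZetaTwo K with hD
  have hlow : ∃ c : ℝ, 0 < c ∧ ∀ s ∈ Set.Ioc (1 : ℝ) 2,
      c ≤ ‖normLSeries K (extChar H ψ₁) s‖ := by
    refine ⟨Real.exp (-D), Real.exp_pos _, fun s hs => ?_⟩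
    have h3' := norm_normPrimeSum_sub_resSum_le K H S ψ₁ hs.1
    have h4 : |(normPrimeSum K (extChar H ψ₁) s - resSum K H S ψ₁ s).re| ≤
        S.card + degTwoConst K := (Complex.abs_re_le_norm _).trans h3'
    rw [Complex.sub_re] at h4
    have h5 := (abs_le.mp h4).1
    have h6 := log_norm_normLSeries_le K (extChar H ψ₁) hs.1
    have h7 : -D ≤ Real.log ‖normLSeries K (extChar H ψ₁) s‖ := by
      rw [hD]; linarith [hB s hs]
    have hpos : 0 < ‖normLSeries K (extChar H ψ₁) s‖ :=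
      norm_pos_iff.mpr (normLSeries_ne_zero K (extChar H ψ₁) hs.1)
    calc Real.exp (-D) ≤ Real.exp (Real.log ‖normLSeries K (extChar H ψ₁) s‖) :=
          Real.exp_le_exp.mpr h7
      _ = ‖normLSeries K (extChar H ψ₁) s‖ := Real.exp_log hpos
  obtain ⟨C, hC⟩ := exists_bound_norm_normPrimeSum K (extChar H ψ₁) hW hlow
  refine ⟨C + (S.card + degTwoConst K), fun s hs => ?_⟩
  have h3' := norm_normPrimeSum_sub_resSum_le K H S ψ₁ hs.1
  have h8 : resSum K H S ψ₁ s = normPrimeSum K (extChar H ψ₁) s -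
      (normPrimeSum K (extChar H ψ₁) s - resSum K H S ψ₁ s) := by ring
  rw [h8]
  exact (norm_sub_le _ _).trans (add_le_add (hC s hs) h3')

include h1 h2 h3 in
/-- **Dirichlet's theorem over a totally complex number field, for norm residues.** -/
theorem exists_lower_bound_resPrimes (a : (ZMod m)ˣ) (ha : a ∈ H) :
    ∃ B : ℝ, ∀ s ∈ Set.Ioc (1 : ℝ) 2,
      (1 / (Nat.card H : ℝ)) * Real.log (1 / (s - 1)) - B ≤
        ∑' q, (resPrimes K S (a : ZMod m)).indicator (wt s) q := by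
  haveI : Fintype (H →* ℂˣ) := Fintype.ofFinite _
  obtain ⟨B₁, hB₁⟩ := exists_bound_goodPrimes K S
  have hbd : ∀ ψ : H →* ℂˣ, ∃ C : ℝ, ψ ≠ 1 → ∀ s ∈ Set.Ioc (1 : ℝ) 2,
      ‖resSum K H S ψ s‖ ≤ C := by
    intro ψ
    by_cases hψ : ψ = 1
    · exact ⟨0, fun h => absurd hψ h⟩
    · obtain ⟨C, hC⟩ := exists_bound_norm_resSum H S h1 h2 h3 hψ
      exact ⟨C, fun _ => hC⟩
  choose C' hC' using hbd
  have hcard : (0 : ℝ) < (Nat.card H : ℝ) := by exact_mod_cast Nat.card_pos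
  refine ⟨(B₁ + ∑ ψ : H →* ℂˣ, |C' ψ|) / (Nat.card H : ℝ), fun s hs => ?_⟩
  have horth := sum_inv_mul_resSum h1 a ha hs.1
  have hre := congrArg Complex.re horth
  rw [Complex.re_sum, Complex.ofReal_re] at hre
  set g : (H →* ℂˣ) → ℝ := fun ψ => ((((ψ ⟨a, ha⟩)⁻¹ : ℂˣ) : ℂ) * resSum K H S ψ s).re with hg
  have hsplit : ∑ ψ : H →* ℂˣ, g ψ = g 1 + ∑ ψ ∈ Finset.univ.erase 1, g ψ :=
    (Finset.add_sum_erase Finset.univ g (Finset.mem_univ 1)).symm
  have hg1 : Real.log (1 / (s - 1)) - B₁ ≤ g 1 := by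
    rw [hg]
    simp only
    rw [MonoidHom.one_apply, inv_one, Units.val_one, one_mul, resSum_one H S h1 s,
      Complex.ofReal_re]
    have := (abs_le.mp (hB₁ s hs)).1
    linarith
  have hrest : -(∑ ψ : H →* ℂˣ, |C' ψ|) ≤ ∑ ψ ∈ Finset.univ.erase 1, g ψ := by
    have h9 : ∀ ψ ∈ Finset.univ.erase (1 : H →* ℂˣ), -|C' ψ| ≤ g ψ := by
      intro ψ hψ
      have hψ1 : ψ ≠ 1 := (Finset.mem_erase.mp hψ).1
      have h10 : |g ψ| ≤ ‖resSum K H S ψ s‖ := by
        rw [hg]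
        simp only
        refine (Complex.abs_re_le_norm _).trans ?_
        rw [norm_mul, ← map_inv, norm_units_char_eq_one, one_mul]
      have h11 := (hC' ψ hψ1 s hs).trans (le_abs_self _)
      have := (abs_le.mp (h10.trans h11)).1
      exact this
    calc -(∑ ψ : H →* ℂˣ, |C' ψ|) ≤ -(∑ ψ ∈ Finset.univ.erase (1 : H →* ℂˣ), |C' ψ|) := by
          apply neg_le_neg
          exact Finset.sum_le_sum_of_subset_of_nonneg (Finset.subset_univ _)
            fun ψ _ _ => abs_nonneg _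
      _ = ∑ ψ ∈ Finset.univ.erase (1 : H →* ℂˣ), -|C' ψ| := by rw [Finset.sum_neg_distrib]
      _ ≤ ∑ ψ ∈ Finset.univ.erase 1, g ψ := Finset.sum_le_sum h9
  rw [hsplit] at hre
  have h12 : Real.log (1 / (s - 1)) - (B₁ + ∑ ψ : H →* ℂˣ, |C' ψ|) ≤
      (Nat.card H : ℝ) * ∑' q, (resPrimes K S (a : ZMod m)).indicator (wt s) q := by
    linarith
  have h13 : (1 / (Nat.card H : ℝ)) * Real.log (1 / (s - 1)) -
      (B₁ + ∑ ψ : H →* ℂˣ, |C' ψ|) / (Nat.card H : ℝ) =
      (Real.log (1 / (s - 1)) - (B₁ + ∑ ψ : H →* ℂˣ, |C' ψ|)) / (Nat.card H : ℝ) := by ring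
  rw [h13, div_le_iff₀ hcard, mul_comm]
  exact h12

end main

end Fermat.Agent.S48lib.Cheb
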