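/-
S48 (Deligne–Serre), block Cheb (helper8): Chebotarev's density theorem (lower bound) for the
cyclotomic extension `N = F(ζ_m)` of a totally complex number field `F`, `m` prime.
-/
import Fermat.Agent.S48lib.Cheb.DirichletF
import Fermat.Agent.S48lib.Cheb.Gal.Stmt
import Fermat.Agent.ExtVan.ArtinCyclo

set_option autoImplicit false
set_option linter.unusedSectionVars false
set_option linter.style.haveILetI false

noncomputable section

namespace Fermat.Agent.S48lib.Cheb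

open NumberField IsDedekindDomain Ideal nonZeroDivisors Filter Topology Finset
open Fermat.Agent.ExtVan Fermat.Agent.ExtVan.SecondIneq Fermat.Agent.S31lib
open scoped Classical IsMulCommutative

section primesOver

variable {F : Type*} [Field F] [NumberField F]

/-- the primes of `F` containing `m`. -/
def primesDividing (F : Type*) [Field F] [NumberField F] (m : ℕ) (hm : m ≠ 0) :
    Finset (HeightOneSpectrum (𝓞 F)) :=
  (Ideal.finite_factors (I := modIdeal F m) (modIdeal_ne_bot hm)).toFinset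

lemma mem_primesDividing {m : ℕ} (hm : m ≠ 0) (q : HeightOneSpectrum (𝓞 F)) :
    q ∈ primesDividing F m hm ↔ (m : 𝓞 F) ∈ q.asIdeal := by
  unfold primesDividing
  rw [Set.Finite.mem_toFinset, Set.mem_ofPred_eq, Ideal.dvd_iff_le, Ideal.span_singleton_le_iff_mem]

/-- the norm of a prime not containing `m` is prime to `m`. -/
lemma coprime_absNorm_of_notMem {m : ℕ} (hm : m ≠ 0) (q : HeightOneSpectrum (𝓞 F))
    (hq : (m : 𝓞 F) ∉ q.asIdeal) : Nat.Coprime m (absNorm q.asIdeal) := by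
  have hmax : q.asIdeal.IsMaximal := q.isMaximal
  have hsup : q.asIdeal ⊔ modIdeal F m = ⊤ := by
    by_contra hne
    have h1 : q.asIdeal = q.asIdeal ⊔ modIdeal F m := hmax.eq_of_le hne le_sup_left
    apply hq
    rw [h1]
    exact Ideal.mem_sup_right (Ideal.mem_span_singleton_self _)
  have hq0 : q.asIdeal ∈ (Ideal (𝓞 F))⁰ := by
    rw [mem_nonZeroDivisors_iff_ne_zero]
    exact q.ne_bot
  have hu := isUnit_absNorm_cast hm ⟨q.asIdeal, hq0⟩ hsup
  exact ((ZMod.isUnit_iff_coprime _ _).mp hu).symm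

/-- monotonicity of the mass of a set of primes. -/
lemma tsum_indicator_wt_mono {X Y : Set (HeightOneSpectrum (𝓞 F))} (h : X ⊆ Y) {s : ℝ}
    (hs : 1 < s) : ∑' q, X.indicator (wt s) q ≤ ∑' q, Y.indicator (wt s) q :=
  (summable_indicator_wt X hs).tsum_le_tsum
    (fun q => Set.indicator_le_indicator_of_subset h (fun q => wt_nonneg s q) q)
    (summable_indicator_wt Y hs)

end primesOver

section cyclo

variable {F N : Type*} [Field F] [NumberField F] [Field N] [NumberField N] [Algebra F N]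
  [IsAbelianGalois F N] {m : ℕ} [NeZero m] [IsCyclotomicExtension {m} F N]

/-- the Frobenius acts on `ζ_m` through the norm residue. -/
lemma autToPow_frob {ζ : N} (hζ : IsPrimitiveRoot ζ m) (q : HeightOneSpectrum (𝓞 F))
    (hq : (m : 𝓞 F) ∉ q.asIdeal) :
    ((hζ.autToPow F (frob F N q) : (ZMod m)ˣ) : ZMod m) =
      ((absNorm q.asIdeal : ℕ) : ZMod m) := by
  have h1 := frob_apply_of_pow_eq_one F N q hζ.pow_eq_one
    (coprime_absNorm_of_notMem (NeZero.ne m) q hq)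
  have h2 := hζ.autToPow_spec F (frob F N q)
  rw [h1] at h2
  have hpos : 0 < m := Nat.pos_of_ne_zero (NeZero.ne m)
  set a : ℕ := ((hζ.autToPow F (frob F N q) : (ZMod m)ˣ) : ZMod m).val with ha
  have h3 : ζ ^ (a % m) = ζ ^ (absNorm q.asIdeal % m) := by
    rw [hζ.eq_orderOf, pow_mod_orderOf, pow_mod_orderOf]
    exact h2
  have h4 : a % m = absNorm q.asIdeal % m :=
    hζ.pow_inj (Nat.mod_lt _ hpos) (Nat.mod_lt _ hpos) h3
  have h5 : ((a : ℕ) : ZMod m) = ((absNorm q.asIdeal : ℕ) : ZMod m) :=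
    (ZMod.natCast_eq_natCast_iff' a _ m).mpr h4
  rw [← h5, ha, ZMod.natCast_val, ZMod.cast_id]

/-- **Chebotarev for the cyclotomic top** `N = F(ζ_m)`, `m` prime, `F` totally complex. -/
theorem cycloTop (hm : m.Prime) [IsTotallyComplex F] (S : Finset (HeightOneSpectrum (𝓞 F)))
    (hS : ∀ q ∉ S, ∀ Q : Ideal (𝓞 N), Q.IsPrime → Q.LiesOver q.asIdeal →
      Q.ramificationIdx (𝓞 F) = 1) (σ₀ : N ≃ₐ[F] N) :
    ∃ B : ℝ, ∀ s ∈ Set.Ioc (1 : ℝ) 2,
      (1 / (Module.finrank F N : ℝ)) * Real.log (1 / (s - 1)) - B ≤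
        ∑' q : HeightOneSpectrum (𝓞 F),
          {q : HeightOneSpectrum (𝓞 F) | q ∉ S ∧ (absNorm q.asIdeal).Prime ∧
              frob F N q = σ₀}.indicator (fun q => (absNorm q.asIdeal : ℝ) ^ (-s)) q := by
  haveI : Fact m.Prime := ⟨hm⟩
  have hm0 : m ≠ 0 := NeZero.ne m
  obtain ⟨ζ, hζ⟩ := IsCyclotomicExtension.exists_isPrimitiveRoot F N (Set.mem_singleton m) hm0
  set κ : (N ≃ₐ[F] N) →* (ZMod m)ˣ := hζ.autToPow F with hκdef
  have hκ : Function.Injective κ := hζ.autToPow_injective F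
  haveI : IsCyclic (N ≃ₐ[F] N) := isCyclic_of_injective κ hκ
  set S' : Finset (HeightOneSpectrum (𝓞 F)) := S ∪ primesDividing F m hm0 with hS'def
  have hS' : ∀ q ∉ S', ∀ Q : Ideal (𝓞 N), Q.IsPrime → Q.LiesOver q.asIdeal →
      Q.ramificationIdx (𝓞 F) = 1 := fun q hq =>
    hS q fun h => hq (Finset.mem_union_left _ h)
  have hqm : ∀ q ∉ S', (m : 𝓞 F) ∉ q.asIdeal := fun q hq h =>
    hq (Finset.mem_union_right _ ((mem_primesDividing hm0 q).mpr h))
  set H : Subgroup (ZMod m)ˣ := κ.range with hH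
  have hcardH : Nat.card H = Module.finrank F N := by
    rw [← IsGalois.card_aut_eq_finrank F N]
    exact (Nat.card_congr (MonoidHom.ofInjective hκ).toEquiv).symm
  have h1 : ∀ q : HeightOneSpectrum (𝓞 F), q ∉ S' →
      ∃ h ∈ H, ((h : (ZMod m)ˣ) : ZMod m) = ((absNorm q.asIdeal : ℕ) : ZMod m) := fun q hq =>
    ⟨κ (frob F N q), ⟨_, rfl⟩, autToPow_frob hζ q (hqm q hq)⟩
  obtain ⟨q₀, hq₀S, hq₀p, hgen⟩ := exists_degOne_prime_frob_generates S' hS'
  have h2 : ∀ h ∈ H, ∃ 𝔞 : (Ideal (𝓞 F))⁰,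
      ((absNorm (𝔞 : Ideal (𝓞 F)) : ℕ) : ZMod m) = ((h : (ZMod m)ˣ) : ZMod m) := by
    rintro h ⟨σ, rfl⟩
    have hσ : σ ∈ Subgroup.zpowers (frob F N q₀) := by rw [hgen]; exact Subgroup.mem_top σ
    rw [← mem_powers_iff_mem_zpowers, Submonoid.mem_powers_iff] at hσ
    obtain ⟨k, hk⟩ := hσ
    refine ⟨(primeIdeal F q₀) ^ k, ?_⟩
    rw [SubmonoidClass.coe_pow, coe_primeIdeal, map_pow, Nat.cast_pow,
      ← autToPow_frob hζ q₀ (hqm q₀ hq₀S), ← Units.val_pow_eq_pow_val, ← map_pow, hk]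
  have hd : (Module.finrank F N : ℝ) = (Nat.card H : ℝ) := by rw [hcardH]
  have h3 : ∃ B₀ : ℝ, ∀ s ∈ Set.Ioc (1 : ℝ) 2,
      (1 / (Nat.card H : ℝ)) * Real.log (1 / (s - 1)) - B₀ ≤
        ∑' q, (resPrimes F S' (1 : ZMod m)).indicator (wt s) q := by
    obtain ⟨B, hB⟩ := exists_lower_bound_splitSet S' hS' (dvd_refl (Module.finrank F N))
    refine ⟨B, fun s hs => ?_⟩
    have hsub : splitSet F N S' (Module.finrank F N) ⊆ resPrimes F S' (1 : ZMod m) := by
      rintro q ⟨hq1, hq2, hq3⟩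
      refine ⟨hq1, hq2, ?_⟩
      obtain ⟨g, hg⟩ := hq3
      have hg1 : frob F N q = 1 := by
        rw [← hg, powMonoidHom_apply, ← IsGalois.card_aut_eq_finrank F N]
        exact pow_card_eq_one'
      rw [← autToPow_frob hζ q (hqm q hq1), hg1, map_one, Units.val_one]
    have := tsum_indicator_wt_mono hsub hs.1
    have h4 := hB s hs
    rw [← hd, one_div_mul_eq_div]
    linarith
  obtain ⟨B, hB⟩ := exists_lower_bound_resPrimes H S' h1 h2 h3 (κ σ₀) ⟨σ₀, rfl⟩
  refine ⟨B, fun s hs => ?_⟩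
  have hsub : resPrimes F S' ((κ σ₀ : (ZMod m)ˣ) : ZMod m) ⊆
      {q : HeightOneSpectrum (𝓞 F) | q ∉ S ∧ (absNorm q.asIdeal).Prime ∧ frob F N q = σ₀} := by
    rintro q ⟨hq1, hq2, hq3⟩
    refine ⟨fun h => hq1 (Finset.mem_union_left _ h), hq2, ?_⟩
    apply hκ
    apply Units.ext
    rw [← hq3]
    exact autToPow_frob hζ q (hqm q hq1)
  have := tsum_indicator_wt_mono hsub hs.1
  have h5 := hB s hs
  rw [hd]
  exact h5.trans this

end cyclo

/-- the target of the analytic half of `S48lib/Cheb`. -/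
theorem cycloTopStmt : Gal.CycloTopStmt := by
  intro F N _ _ _ _ _ _ m hm hcyc htc S hS σ₀
  haveI : NeZero m := ⟨hm.ne_zero⟩
  exact cycloTop hm S hS σ₀

end Fermat.Agent.S48lib.Cheb
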