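/-
S48lib / Cheb / Analysis  (helper4, item (A3) of helper8's Chebotarev plan).

Pure analysis, Mathlib + `ExtVan/SecondIneq/AbelSum` only.

* `exists_continuousOn_dirichlet` : if `‖∑_{i ≤ n} b i‖ ≤ B (n+1)^θ` with `θ < 1`, the Dirichlet
  series `∑ (i+1)^{-s} b i` converges for every `s ∈ [1, 2]` to a function CONTINUOUS on `[1, 2]`
  (Abel summation + `continuousOn_tsum`).
* `bounded_of_exp_eq` : `ℓ` continuous on `(1, 2]`, `f` continuous on `[1, 2]`, `exp ∘ ℓ = f` on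
  `(1, 2]`, `f 1 ≠ 0`  ⇒  `ℓ` is bounded on `(1, 2]` (real AND imaginary part).
-/
import Mathlib
import Fermat.Agent.ExtVan.SecondIneq.AbelSum

set_option autoImplicit false

noncomputable section

namespace Fermat.Agent.S48lib.Cheb

open Finset Filter Topology Fermat.Agent.ExtVan.SecondIneq

section Abel

variable (b : ℕ → ℂ)

/-- the Abel summand `((i+1)^{-s} - (i+2)^{-s}) • ∑_{j ≤ i} b j` -/
def abelTerm (s : ℝ) (i : ℕ) : ℂ :=
  (((i : ℝ) + 1) ^ (-s) - ((i : ℝ) + 1 + 1) ^ (-s)) • ∑ j ∈ range (i + 1), b j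

variable {b} {B θ : ℝ}

theorem norm_abelTerm_le (hB0 : 0 ≤ B)
    (hB : ∀ n : ℕ, ‖∑ i ∈ range (n + 1), b i‖ ≤ B * ((n : ℝ) + 1) ^ θ)
    {s : ℝ} (hs1 : 1 ≤ s) (hs2 : s ≤ 2) (i : ℕ) :
    ‖abelTerm b s i‖ ≤ B * (2 * ((i : ℝ) + 1) ^ (θ - 2)) := by
  have hx : (1 : ℝ) ≤ (i : ℝ) + 1 := by
    have : (0 : ℝ) ≤ i := Nat.cast_nonneg i
    linarith
  have hx0 : (0 : ℝ) < (i : ℝ) + 1 := by linarith
  unfold abelTerm
  rw [norm_smul, Real.norm_eq_abs, abs_of_nonneg (rpow_neg_sub_nonneg hx (by linarith))]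
  have h1 := rpow_neg_sub_le hx hs1
  have h2 := hB i
  have h3 : ((i : ℝ) + 1) ^ (-s - 1) ≤ ((i : ℝ) + 1) ^ (-2 : ℝ) :=
    Real.rpow_le_rpow_of_exponent_le hx (by linarith)
  calc (((i : ℝ) + 1) ^ (-s) - ((i : ℝ) + 1 + 1) ^ (-s)) * ‖∑ j ∈ range (i + 1), b j‖
      ≤ (s * ((i : ℝ) + 1) ^ (-s - 1)) * (B * ((i : ℝ) + 1) ^ θ) :=
        mul_le_mul h1 h2 (norm_nonneg _)
          (mul_nonneg (by linarith) (Real.rpow_nonneg hx0.le _))
    _ ≤ (2 * ((i : ℝ) + 1) ^ (-2 : ℝ)) * (B * ((i : ℝ) + 1) ^ θ) := by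
        apply mul_le_mul_of_nonneg_right _
          (mul_nonneg hB0 (Real.rpow_nonneg hx0.le _))
        exact mul_le_mul hs2 h3 (Real.rpow_nonneg hx0.le _) (by norm_num)
    _ = B * (2 * ((i : ℝ) + 1) ^ (θ - 2)) := by
        rw [show θ - 2 = (-2 : ℝ) + θ by ring, Real.rpow_add hx0]; ring

theorem continuous_abelTerm (i : ℕ) : Continuous fun s : ℝ => abelTerm b s i := by
  have hx0 : (0 : ℝ) < (i : ℝ) + 1 := by positivity
  have hx1 : (0 : ℝ) < (i : ℝ) + 1 + 1 := by positivity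
  unfold abelTerm
  have h1 : Continuous fun s : ℝ => ((i : ℝ) + 1) ^ (-s) - ((i : ℝ) + 1 + 1) ^ (-s) :=
    ((Real.continuous_const_rpow hx0.ne').comp continuous_neg).sub
      ((Real.continuous_const_rpow hx1.ne').comp continuous_neg)
  exact h1.smul continuous_const

/-- Abel summation -/
theorem sum_smul_eq_abel (s : ℝ) (N : ℕ) :
    ∑ i ∈ range (N + 1), (((i : ℝ) + 1) ^ (-s)) • b i =
      (((N : ℝ) + 1) ^ (-s)) • ∑ i ∈ range (N + 1), b i + ∑ i ∈ range N, abelTerm b s i := by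
  rw [sum_range_by_parts]
  simp only [Nat.add_sub_cancel]
  rw [sub_eq_add_neg, ← Finset.sum_neg_distrib]
  congr 1
  refine Finset.sum_congr rfl fun i _ => ?_
  unfold abelTerm
  rw [← neg_smul]
  congr 1
  push_cast
  ring

/-- **Dirichlet series with small coefficient sums**: convergence on `[1, 2]` to a continuous
function. -/
theorem exists_continuousOn_dirichlet (b : ℕ → ℂ) {B θ : ℝ} (hθ : θ < 1)
    (hB : ∀ n : ℕ, ‖∑ i ∈ range (n + 1), b i‖ ≤ B * ((n : ℝ) + 1) ^ θ) :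
    ∃ f : ℝ → ℂ, ContinuousOn f (Set.Icc 1 2) ∧ ∀ s ∈ Set.Icc (1 : ℝ) 2,
      Tendsto (fun N : ℕ => ∑ i ∈ range N, (((i : ℝ) + 1) ^ (-s)) • b i) atTop (𝓝 (f s)) := by
  have hB0 : 0 ≤ B := by
    have h := hB 0
    simp only [Nat.cast_zero, zero_add, Real.one_rpow, mul_one] at h
    exact le_trans (norm_nonneg _) h
  have hsum : Summable fun i : ℕ => B * (2 * ((i : ℝ) + 1) ^ (θ - 2)) :=
    ((summable_abel hθ).mul_left 2).mul_left B
  refine ⟨fun s => ∑' i, abelTerm b s i, ?_, fun s hs => ?_⟩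
  · exact continuousOn_tsum (fun i => (continuous_abelTerm i).continuousOn) hsum
      fun i s hs => norm_abelTerm_le hB0 hB hs.1 hs.2 i
  · rw [← tendsto_add_atTop_iff_nat 1]
    have hfun : (fun N : ℕ => ∑ i ∈ range (N + 1), (((i : ℝ) + 1) ^ (-s)) • b i) =
        fun N : ℕ => (((N : ℝ) + 1) ^ (-s)) • ∑ i ∈ range (N + 1), b i +
          ∑ i ∈ range N, abelTerm b s i := funext fun N => sum_smul_eq_abel s N
    rw [hfun]
    have hsm : Summable fun i => abelTerm b s i :=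
      Summable.of_norm_bounded hsum fun i => norm_abelTerm_le hB0 hB hs.1 hs.2 i
    have h2 : Tendsto (fun N : ℕ => ∑ i ∈ range N, abelTerm b s i) atTop
        (𝓝 (∑' i, abelTerm b s i)) := hsm.hasSum.tendsto_sum_nat
    have h1 : Tendsto (fun N : ℕ => (((N : ℝ) + 1) ^ (-s)) • ∑ i ∈ range (N + 1), b i) atTop
        (𝓝 0) := by
      rw [tendsto_zero_iff_norm_tendsto_zero]
      have hbound : ∀ N : ℕ, ‖(((N : ℝ) + 1) ^ (-s)) • ∑ i ∈ range (N + 1), b i‖ ≤
          B * ((N : ℝ) + 1) ^ (θ - s) := by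
        intro N
        have hx0 : (0 : ℝ) < (N : ℝ) + 1 := by positivity
        rw [norm_smul, Real.norm_of_nonneg (Real.rpow_nonneg hx0.le _)]
        calc ((N : ℝ) + 1) ^ (-s) * ‖∑ i ∈ range (N + 1), b i‖
            ≤ ((N : ℝ) + 1) ^ (-s) * (B * ((N : ℝ) + 1) ^ θ) :=
              mul_le_mul_of_nonneg_left (hB N) (Real.rpow_nonneg hx0.le _)
          _ = B * ((N : ℝ) + 1) ^ (θ - s) := by
              rw [show θ - s = -s + θ by ring, Real.rpow_add hx0]; ring
      have hlim : Tendsto (fun N : ℕ => B * ((N : ℝ) + 1) ^ (θ - s)) atTop (𝓝 0) := by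
        have h3 : Tendsto (fun N : ℕ => ((N : ℝ) + 1) ^ (θ - s)) atTop (𝓝 0) := by
          have h4 : Tendsto (fun x : ℝ => x ^ (-(s - θ))) atTop (𝓝 0) :=
            tendsto_rpow_neg_atTop (by linarith [hs.1])
          have h5 : Tendsto (fun N : ℕ => (N : ℝ) + 1) atTop atTop :=
            tendsto_atTop_add_const_right _ _ tendsto_natCast_atTop_atTop
          have := h4.comp h5
          simpa [Function.comp_def, neg_sub] using this
        simpa using h3.const_mul B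
      exact squeeze_zero (fun N => norm_nonneg _) hbound hlim
    simpa using h1.add h2

end Abel

section LogBound

open Complex

/-- an integer valued continuous function on an interval is constant (IVT) -/
theorem eq_of_continuousOn_int_valued {J : Set ℝ} (hJ : J.OrdConnected) {ψ : ℝ → ℝ}
    (hψ : ContinuousOn ψ J) (hint : ∀ s ∈ J, ∃ n : ℤ, ψ s = n) {s s₀ : ℝ} (hs : s ∈ J)
    (hs₀ : s₀ ∈ J) : ψ s = ψ s₀ := by
  by_contra hne
  obtain ⟨n, hn⟩ := hint s hs
  obtain ⟨n₀, hn₀⟩ := hint s₀ hs₀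
  have hsub : Set.uIcc s s₀ ⊆ J := hJ.uIcc_subset hs hs₀
  have hivt := intermediate_value_uIcc (hψ.mono hsub)
  have hnn : n ≠ n₀ := fun h => hne (by rw [hn, hn₀, h])
  -- the midpoint between `n` and `n₀`-side neighbour is attained but is not an integer
  have hmid : (n : ℝ) + ((n₀ : ℝ) - n) / (2 * |(n₀ : ℝ) - n|) ∈ Set.uIcc (ψ s) (ψ s₀) := by
    rw [hn, hn₀]
    have hd : (n₀ : ℝ) - n ≠ 0 := by
      intro h
      apply hnn
      have : (n₀ : ℝ) = n := by linarith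
      exact_mod_cast this.symm
    have habs : (1 : ℝ) ≤ |(n₀ : ℝ) - n| := by
      have : (1 : ℤ) ≤ |n₀ - n| := Int.one_le_abs (sub_ne_zero.2 (Ne.symm hnn))
      exact_mod_cast this
    rcases lt_or_gt_of_ne hd with hlt | hgt
    · rw [abs_of_neg hlt] at habs ⊢
      rw [Set.mem_uIcc]
      right
      have h1 : ((n₀ : ℝ) - n) / (2 * -((n₀ : ℝ) - n)) = -(1 / 2) := by
        field_simp
      rw [h1]
      constructor <;> linarith
    · rw [abs_of_pos hgt] at habs ⊢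
      rw [Set.mem_uIcc]
      left
      have h1 : ((n₀ : ℝ) - n) / (2 * ((n₀ : ℝ) - n)) = 1 / 2 := by
        field_simp
      rw [h1]
      constructor <;> linarith
  obtain ⟨s₂, hs₂, hval⟩ := hivt hmid
  obtain ⟨m, hm⟩ := hint s₂ (hsub hs₂)
  rw [hm] at hval
  -- `m - n = ± 1/2`
  have hd : (n₀ : ℝ) - n ≠ 0 := by
    intro h
    apply hnn
    have : (n₀ : ℝ) = n := by linarith
    exact_mod_cast this.symm
  have hhalf : ((n₀ : ℝ) - n) / (2 * |(n₀ : ℝ) - n|) = 1 / 2 ∨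
      ((n₀ : ℝ) - n) / (2 * |(n₀ : ℝ) - n|) = -(1 / 2) := by
    rcases lt_or_gt_of_ne hd with hlt | hgt
    · right
      rw [abs_of_neg hlt]
      field_simp
    · left
      rw [abs_of_pos hgt]
      field_simp
  rcases hhalf with h | h
  · rw [h] at hval
    have : (2 : ℝ) * m = 2 * n + 1 := by linarith
    have h2 : (2 : ℤ) * m = 2 * n + 1 := by exact_mod_cast this
    omega
  · rw [h] at hval
    have : (2 : ℝ) * m = 2 * n - 1 := by linarith
    have h2 : (2 : ℤ) * m = 2 * n - 1 := by exact_mod_cast this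
    omega

/-- **a continuous logarithm of a function with nonzero limit is bounded.** -/
theorem bounded_of_exp_eq {ℓ f : ℝ → ℂ} (hℓ : ContinuousOn ℓ (Set.Ioc 1 2))
    (hf : ContinuousOn f (Set.Icc 1 2)) (h : ∀ s ∈ Set.Ioc (1 : ℝ) 2, Complex.exp (ℓ s) = f s)
    (h1 : f 1 ≠ 0) : ∃ C : ℝ, ∀ s ∈ Set.Ioc (1 : ℝ) 2, ‖ℓ s‖ ≤ C := by
  set w : ℂ := f 1 with hw
  have hwpos : 0 < ‖w‖ := norm_pos_iff.2 h1
  -- a neighbourhood of `1` on which `f` stays close to `w`
  have hcont := hf 1 (Set.left_mem_Icc.2 one_le_two)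
  rw [Metric.continuousWithinAt_iff] at hcont
  obtain ⟨δ₀, hδ₀, hclose⟩ := hcont (‖w‖ / 2) (by positivity)
  set δ : ℝ := min (δ₀ / 2) 1 with hδ
  have hδpos : 0 < δ := lt_min (by positivity) one_pos
  have hδ1 : δ ≤ 1 := min_le_right _ _
  have hδ2 : δ < δ₀ := lt_of_le_of_lt (min_le_left _ _) (by linarith)
  set J : Set ℝ := Set.Ioc 1 (1 + δ) with hJ
  have hJsub : J ⊆ Set.Ioc 1 2 := fun s hs => ⟨hs.1, by linarith [hs.2]⟩
  have hJord : J.OrdConnected := Set.ordConnected_Ioc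
  have hfclose : ∀ s ∈ J, ‖f s / w - 1‖ ≤ 1 / 2 := by
    intro s hs
    have hd : dist s 1 < δ₀ := by
      rw [Real.dist_eq, abs_of_pos (by linarith [hs.1])]
      linarith [hs.2]
    have h2 := hclose ⟨hs.1.le, (hJsub hs).2⟩ hd
    rw [dist_eq_norm] at h2
    have h3 : f s / w - 1 = (f s - w) / w := by
      field_simp
    rw [h3, norm_div, div_le_iff₀ hwpos]
    linarith
  have hslit : ∀ s ∈ J, f s / w ∈ Complex.slitPlane := by
    intro s hs
    have h2 : f s / w = 1 + (f s / w - 1) := by ring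
    rw [h2]
    exact Complex.mem_slitPlane_of_norm_lt_one (lt_of_le_of_lt (hfclose s hs) (by norm_num))
  -- the difference with the principal logarithm
  set g : ℝ → ℂ := fun s => ℓ s - Complex.log (f s / w) with hg
  have hgcont : ContinuousOn g J := by
    refine (hℓ.mono hJsub).sub (ContinuousOn.clog ?_ hslit)
    exact (hf.mono fun s hs => ⟨hs.1.le, (hJsub hs).2⟩).div_const w
  have hgexp : ∀ s ∈ J, Complex.exp (g s) = w := by
    intro s hs
    have hne : f s / w ≠ 0 := Complex.slitPlane_ne_zero (hslit s hs)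
    have hfs : f s ≠ 0 := fun h0 => hne (by rw [h0, zero_div])
    simp only [hg]
    rw [Complex.exp_sub, h s (hJsub hs), Complex.exp_log hne]
    field_simp
  set s₀ : ℝ := 1 + δ with hs₀
  have hs₀J : s₀ ∈ J := ⟨by linarith, le_rfl⟩
  set ψ : ℝ → ℝ := fun s => ((g s - g s₀) / (2 * Real.pi * Complex.I)).re with hψ
  have h2πI : (2 * (Real.pi : ℂ) * Complex.I) ≠ 0 := by
    simp [Real.pi_ne_zero]
  have hint : ∀ s ∈ J, ∃ n : ℤ, g s - g s₀ = n * (2 * Real.pi * Complex.I) := by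
    intro s hs
    have h2 : Complex.exp (g s) = Complex.exp (g s₀) := by rw [hgexp s hs, hgexp s₀ hs₀J]
    obtain ⟨n, hn⟩ := Complex.exp_eq_exp_iff_exists_int.1 h2
    exact ⟨n, by rw [hn]; ring⟩
  have hψint : ∀ s ∈ J, ∃ n : ℤ, ψ s = n := by
    intro s hs
    obtain ⟨n, hn⟩ := hint s hs
    refine ⟨n, ?_⟩
    simp only [hψ]
    rw [hn, mul_div_assoc, div_self h2πI, mul_one]
    simp
  have hψcont : ContinuousOn ψ J := by
    have h3 : ContinuousOn (fun s => (g s - g s₀) / (2 * Real.pi * Complex.I)) J :=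
      (hgcont.sub continuousOn_const).div_const _
    exact Complex.continuous_re.comp_continuousOn h3
  have hψ0 : ψ s₀ = 0 := by simp [hψ]
  have hgconst : ∀ s ∈ J, g s = g s₀ := by
    intro s hs
    obtain ⟨n, hn⟩ := hint s hs
    have h3 : ψ s = n := by
      simp only [hψ]
      rw [hn, mul_div_assoc, div_self h2πI, mul_one]
      simp
    have h4 : ψ s = ψ s₀ := eq_of_continuousOn_int_valued hJord hψcont hψint hs hs₀J
    rw [hψ0, h3] at h4
    have h5 : n = 0 := by exact_mod_cast h4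
    rw [h5] at hn
    simpa [sub_eq_zero] using hn
  -- bound of the principal logarithm on the closed ball
  have hlogcont : ContinuousOn Complex.log (Metric.closedBall (1 : ℂ) (1 / 2)) := by
    intro z hz
    refine (continuousAt_clog ?_).continuousWithinAt
    have h2 : z = 1 + (z - 1) := by ring
    rw [h2]
    refine Complex.mem_slitPlane_of_norm_lt_one ?_
    rw [Metric.mem_closedBall, dist_eq_norm] at hz
    exact lt_of_le_of_lt hz (by norm_num)
  obtain ⟨C₁, hC₁⟩ := (isCompact_closedBall (1 : ℂ) (1 / 2)).exists_bound_of_continuousOn hlogcont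
  -- bound of `ℓ` on the compact remainder
  obtain ⟨C₂, hC₂⟩ := (isCompact_Icc (a := 1 + δ) (b := 2)).exists_bound_of_continuousOn
    (hℓ.mono fun s hs => ⟨by linarith [hs.1], hs.2⟩)
  refine ⟨max (C₁ + ‖g s₀‖) C₂, fun s hs => ?_⟩
  by_cases hsJ : s ≤ 1 + δ
  · have hsJ' : s ∈ J := ⟨hs.1, hsJ⟩
    have h3 : ℓ s = Complex.log (f s / w) + g s₀ := by
      rw [← hgconst s hsJ']
      simp only [hg]
      ring
    have h4 : ‖Complex.log (f s / w)‖ ≤ C₁ := by
      refine hC₁ _ ?_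
      rw [Metric.mem_closedBall, dist_eq_norm]
      exact hfclose s hsJ'
    rw [h3]
    exact le_trans (le_trans (norm_add_le _ _) (by linarith)) (le_max_left _ _)
  · have h3 : s ∈ Set.Icc (1 + δ) 2 := ⟨by linarith, hs.2⟩
    exact le_trans (hC₂ s h3) (le_max_right _ _)

end LogBound

end Fermat.Agent.S48lib.Cheb
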