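/-
S48 (Deligne–Serre), block Cheb (helper8): generic cardinality lemmas.
-/
import Mathlib

set_option autoImplicit false

namespace Fermat.Agent.S48lib.Cheb

open Finset

/-- fibrewise counting for `Nat.card` of subtypes. -/
theorem natCard_fiberwise {α B : Type*} [Fintype B] (P : α → Prop) (f : α → B) (Q : B → Prop)
    [DecidablePred Q] (hfin : Finite {a // P a}) :
    Nat.card {a // P a ∧ Q (f a)} = ∑ β ∈ univ.filter Q, Nat.card {a // P a ∧ f a = β} := by
  classical
  have e : {a // P a ∧ Q (f a)} ≃ Σ β : {β // Q β}, {a // P a ∧ f a = (β : B)} :=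
    { toFun := fun a => ⟨⟨f a.1, a.2.2⟩, ⟨a.1, a.2.1, rfl⟩⟩
      invFun := fun x => ⟨x.2.1, x.2.2.1, by rw [x.2.2.2]; exact x.1.2⟩
      left_inv := fun a => rfl
      right_inv := fun x => by
        obtain ⟨⟨β, hβ⟩, ⟨a, ha, hfa⟩⟩ := x
        change f a = β at hfa
        subst hfa
        rfl }
  have hfin' : ∀ β : {β // Q β}, Finite {a // P a ∧ f a = (β : B)} := fun β =>
    Finite.of_injective (fun a : {a // P a ∧ f a = (β : B)} => (⟨a.1, a.2.1⟩ : {a // P a}))
      fun a a' h => Subtype.ext (by simpa using h)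
  rw [Nat.card_congr e, Nat.card_sigma]
  rw [← Finset.sum_subtype (univ.filter Q) (p := Q) (by simp)
    (fun β => Nat.card {a // P a ∧ f a = β})]

/-- a linear function which is `O(s ^ θ)` with `θ < 1` vanishes. -/
theorem eq_zero_of_abs_mul_le {a B θ : ℝ} (hθ : θ < 1)
    (h : ∀ s : ℝ, 1 ≤ s → |a * s| ≤ B * s ^ θ) : a = 0 := by
  by_contra ha
  have ha0 : 0 < |a| := abs_pos.mpr ha
  have hlim : Filter.Tendsto (fun s : ℝ => |B| * s ^ (-(1 - θ))) Filter.atTop (nhds 0) := by
    simpa using (tendsto_rpow_neg_atTop (sub_pos.mpr hθ)).const_mul |B|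
  have hev : ∀ᶠ s : ℝ in Filter.atTop, |a| ≤ |B| * s ^ (-(1 - θ)) := by
    filter_upwards [Filter.eventually_ge_atTop 1] with s hs
    have hs0 : 0 < s := lt_of_lt_of_le one_pos hs
    have h1 := h s hs
    rw [abs_mul, abs_of_pos hs0] at h1
    have h2 : |a| * s ≤ |B| * s ^ θ :=
      h1.trans (mul_le_mul_of_nonneg_right (le_abs_self B) (Real.rpow_nonneg hs0.le _))
    have h3 : s ^ θ = s ^ (-(1 - θ)) * s := by
      rw [← Real.rpow_add_one hs0.ne']; congr 1; ring
    rw [h3, ← mul_assoc] at h2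
    exact le_of_mul_le_mul_right h2 hs0
  have := ge_of_tendsto hlim hev
  linarith

end Fermat.Agent.S48lib.Cheb
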