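/-
S48 (Deligne–Serre), block Cheb (helper8): every ideal class of a Dedekind domain contains an
integral ideal coprime to a given nonzero ideal.
-/
import Mathlib

set_option autoImplicit false

namespace Fermat.Agent.S48lib.Cheb

open Ideal nonZeroDivisors

variable {R : Type*} [CommRing R] [IsDedekindDomain R]

/-- every ideal class contains an integral ideal coprime to a given nonzero ideal. -/
theorem exists_mk0_eq_and_sup_eq_top (C : ClassGroup R) (𝔪 : Ideal R) (h𝔪 : 𝔪 ≠ ⊥) :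
    ∃ J : (Ideal R)⁰, ClassGroup.mk0 J = C ∧ (J : Ideal R) ⊔ 𝔪 = ⊤ := by
  by_cases htop : 𝔪 = ⊤
  · obtain ⟨J, hJ⟩ := ClassGroup.mk0_surjective C
    exact ⟨J, hJ, by rw [htop, sup_top_eq]⟩
  obtain ⟨I₀, hI₀⟩ := ClassGroup.mk0_surjective C⁻¹
  have hI₀ne : (I₀ : Ideal R) ≠ ⊥ := by
    have := nonZeroDivisors.ne_zero I₀.2
    rwa [Ideal.zero_eq_bot] at this
  have hle : (I₀ : Ideal R) * 𝔪 ≤ I₀ := Ideal.mul_le_left
  have hne : (I₀ : Ideal R) * 𝔪 ≠ ⊥ := by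
    rw [← Ideal.zero_eq_bot]
    exact mul_ne_zero (by rwa [Ideal.zero_eq_bot]) (by rwa [Ideal.zero_eq_bot])
  obtain ⟨a, ha⟩ := IsDedekindDomain.exists_sup_span_eq hle hne
  have haI : a ∈ (I₀ : Ideal R) := by
    rw [← ha]; exact Ideal.mem_sup_right (Ideal.mem_span_singleton_self a)
  obtain ⟨K', hK'⟩ : (I₀ : Ideal R) ∣ Ideal.span {a} := by
    rw [Ideal.dvd_iff_le, Ideal.span_singleton_le_iff_mem]; exact haI
  have hsup : 𝔪 ⊔ K' = ⊤ := by
    have h1 : (I₀ : Ideal R) * (𝔪 ⊔ K') = (I₀ : Ideal R) * ⊤ := by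
      rw [Ideal.mul_sup, ← hK', ha, Ideal.mul_top]
    have h0 : (I₀ : Ideal R) ≠ 0 := by rwa [Ideal.zero_eq_bot]
    exact mul_left_cancel₀ h0 h1
  have hK'ne : K' ≠ ⊥ := by
    rintro rfl
    exact htop (by rwa [sup_bot_eq] at hsup)
  have hK'mem : K' ∈ (Ideal R)⁰ := mem_nonZeroDivisors_of_ne_zero (by rwa [Ideal.zero_eq_bot])
  refine ⟨⟨K', hK'mem⟩, ?_, by rw [sup_comm]; exact hsup⟩
  have hane : a ≠ 0 := by
    rintro rfl
    rw [Ideal.span_singleton_eq_bot.mpr rfl] at hK'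
    have := hK'.symm
    rw [← Ideal.zero_eq_bot, mul_eq_zero] at this
    rcases this with h | h
    · exact hI₀ne (by rwa [Ideal.zero_eq_bot] at h)
    · exact hK'ne (by rwa [Ideal.zero_eq_bot] at h)
  have hspan : Ideal.span {a} ∈ (Ideal R)⁰ :=
    mem_nonZeroDivisors_of_ne_zero (by
      rw [Ideal.zero_eq_bot, Ne, Ideal.span_singleton_eq_bot]; exact hane)
  have hprod : I₀ * ⟨K', hK'mem⟩ = ⟨Ideal.span {a}, hspan⟩ := by
    ext1; exact hK'.symm
  have h1 : ClassGroup.mk0 (⟨Ideal.span {a}, hspan⟩ : (Ideal R)⁰) = 1 := by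
    rw [ClassGroup.mk0_eq_one_iff]
    exact ⟨⟨a, rfl⟩⟩
  have h2 := congrArg ClassGroup.mk0 hprod
  rw [map_mul, hI₀, h1] at h2
  exact (inv_mul_eq_one.mp h2).symm

end Fermat.Agent.S48lib.Cheb
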