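/-
S48 (Deligne–Serre), block Cheb (helper8), file 1: lattice point counting in TRANSLATES of a
lattice, with a power saving error term, uniformly in the translation vector.

`#((t • D) ∩ (v + L)) * covol L = t ^ n * vol D + O(t ^ (n - 1))`, and the version for cones
`{x ∈ X | F x ≤ c}`.  Both are the translate versions of
`ExtVan.IdealCount.exists_bound_card_smul_inter` / `exists_bound_card_le_inter`.
-/
import Fermat.Agent.ExtVan.LatticeCountError

set_option autoImplicit false
set_option linter.unusedSectionVars false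

namespace Fermat.Agent.S48lib.Cheb

open MeasureTheory Metric Set Submodule Module ZSpan Bornology
open scoped Pointwise
open Fermat.Agent.ExtVan.IdealCount

section scaled

variable {E : Type*} [NormedAddCommGroup E] [InnerProductSpace ℝ E] [FiniteDimensional ℝ E]
  [MeasurableSpace E] [BorelSpace E]
variable (L : Submodule ℤ E) [DiscreteTopology L] [IsZLattice ℝ L]

/-- the points of `A` in the translate `v + L` correspond to the points of `-v + A` in `L`. -/
theorem card_inter_vadd_eq (A : Set E) (v : E) :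
    Nat.card ↥(A ∩ (v +ᵥ (L : Set E))) = Nat.card ↥(((-v) +ᵥ A) ∩ (L : Set E)) := by
  refine Nat.card_congr ?_
  refine
    { toFun := fun x => ⟨-v + x.1, ?_, ?_⟩
      invFun := fun y => ⟨v + y.1, ?_, ?_⟩
      left_inv := fun x => by ext; simp
      right_inv := fun y => by ext; simp }
  · exact ⟨x.1, x.2.1, rfl⟩
  · obtain ⟨l, hl, hlx⟩ := x.2.2
    have : -v + x.1 = l := by rw [← hlx]; simp
    rw [this]; exact hl
  · obtain ⟨a, ha, hay⟩ := y.2.1
    have : v + y.1 = a := by rw [← hay]; simp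
    rw [this]; exact ha
  · exact ⟨y.1, y.2.2, rfl⟩

theorem frontier_vadd_set (v : E) (D : Set E) : frontier (v +ᵥ D) = v +ᵥ frontier D := by
  have := (Homeomorph.addLeft v : E ≃ₜ E).image_frontier D
  have e : ∀ S : Set E, (Homeomorph.addLeft v : E ≃ₜ E) '' S = v +ᵥ S := fun S => by
    ext x
    simp only [Set.mem_image, Set.mem_vadd_set]
    rfl
  rw [e, e] at this
  exact this.symm

/-- Lattice point count in a dilated set, for a translated lattice, with error term
(uniform in the translation). -/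
theorem exists_bound_card_smul_inter_vadd {D : Set E} (hD : IsBounded D) {C : ℝ}
    (hC : HasCoverBound (frontier D) (finrank ℝ E - 1) C) :
    ∃ B : ℝ, 0 ≤ B ∧ ∀ (v : E) (t : ℝ), 1 ≤ t →
      |(Nat.card ↥((t • D) ∩ (v +ᵥ (L : Set E))) : ℝ) * ZLattice.covolume L
          - t ^ finrank ℝ E * volume.real D| ≤ B * t ^ (finrank ℝ E - 1) := by
  classical
  set b := (Module.Free.chooseBasis ℤ L).ofZLatticeBasis ℝ L with hb
  have hspan : (span ℤ (Set.range b) : Set E) = (L : Set E) := by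
    rw [hb, Basis.ofZLatticeBasis_span ℝ L]
  have hcov : ZLattice.covolume L = volume.real (fundamentalDomain b) :=
    ZLattice.covolume_eq_measure_fundamentalDomain L volume
      (ZLattice.isAddFundamentalDomain (Module.Free.chooseBasis ℤ L) volume)
  set V : ℝ := volume.real (closedBall (0 : E) (1 + ∑ i, ‖b i‖)) with hV
  have hV0 : 0 ≤ V := measureReal_nonneg
  refine ⟨C * V, mul_nonneg hC.const_nonneg hV0, fun v t ht => ?_⟩
  have ht0 : 0 < t := lt_of_lt_of_le one_pos ht
  obtain ⟨T, hTcard, hTcov⟩ := hC t⁻¹ (inv_pos.mpr ht0) (inv_le_one_of_one_le₀ ht)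
  rw [inv_inv] at hTcard
  set T' : Finset E := T.image fun c => -v + t • c with hT'
  have hT'cov : frontier ((-v) +ᵥ (t • D)) ⊆ ⋃ c ∈ T', closedBall c 1 := by
    rw [frontier_vadd_set, frontier_smul_set ht0.ne']
    rintro _ ⟨_, ⟨y, hy, rfl⟩, rfl⟩
    obtain ⟨c, hc, hyc⟩ := mem_iUnion₂.mp (hTcov hy)
    refine mem_iUnion₂.mpr ⟨-v + t • c, Finset.mem_image_of_mem _ hc, ?_⟩
    rw [mem_closedBall] at hyc ⊢
    show dist (-v + t • y) (-v + t • c) ≤ 1
    rw [dist_add_left, dist_smul₀, Real.norm_of_nonneg ht0.le]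
    calc t * dist y c ≤ t * t⁻¹ := mul_le_mul_of_nonneg_left hyc ht0.le
      _ = 1 := mul_inv_cancel₀ ht0.ne'
  have hbdd : IsBounded ((-v) +ᵥ (t • D)) := (hD.smul₀ t).vadd _
  have hcore := abs_card_mul_sub_volume_le b hbdd T' hT'cov
  rw [hspan, ← hcov, ← card_inter_vadd_eq] at hcore
  have hvol : volume.real ((-v) +ᵥ (t • D)) = t ^ finrank ℝ E * volume.real D := by
    rw [measureReal_def, measure_vadd, Measure.addHaar_smul, ENNReal.toReal_mul,
      ENNReal.toReal_ofReal (abs_nonneg _), abs_of_pos (pow_pos ht0 _), measureReal_def]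
  rw [hvol] at hcore
  refine hcore.trans ?_
  have h1 : (T'.card : ℝ) ≤ T.card := by exact_mod_cast Finset.card_image_le
  calc (T'.card : ℝ) * V ≤ (C * t ^ (finrank ℝ E - 1)) * V :=
        mul_le_mul_of_nonneg_right (h1.trans hTcard) hV0
    _ = C * V * t ^ (finrank ℝ E - 1) := by ring

end scaled

section cone

variable {E : Type*} [NormedAddCommGroup E] [InnerProductSpace ℝ E] [FiniteDimensional ℝ E]
  [MeasurableSpace E] [BorelSpace E]
variable (L : Submodule ℤ E) [DiscreteTopology L] [IsZLattice ℝ L]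

/-- Points of a translated lattice in a cone with bounded norm: count with a power saving error
term, uniform in the translation. -/
theorem exists_bound_card_le_inter_vadd [Nontrivial E] {X : Set E} {F : E → ℝ}
    (hX : ∀ ⦃x⦄ ⦃r : ℝ⦄, x ∈ X → 0 < r → r • x ∈ X)
    (h₁ : ∀ x ⦃r : ℝ⦄, 0 ≤ r → F (r • x) = r ^ finrank ℝ E * (F x))
    (h₂ : IsBounded {x ∈ X | F x ≤ 1}) {C : ℝ}
    (hC : HasCoverBound (frontier {x ∈ X | F x ≤ 1}) (finrank ℝ E - 1) C) :
    ∃ B : ℝ, 0 ≤ B ∧ ∀ (v : E) (c : ℝ), 1 ≤ c →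
      |(Nat.card ↥({x ∈ X | F x ≤ c} ∩ (v +ᵥ (L : Set E))) : ℝ) * ZLattice.covolume L
          - c * volume.real {x ∈ X | F x ≤ 1}| ≤ B * c ^ (1 - (finrank ℝ E : ℝ)⁻¹) := by
  obtain ⟨B, hB0, hB⟩ := exists_bound_card_smul_inter_vadd L h₂ hC
  refine ⟨B, hB0, fun v c hc => ?_⟩
  have hn : 0 < finrank ℝ E := finrank_pos
  have hn' : (finrank ℝ E : ℝ) ≠ 0 := Nat.cast_ne_zero.mpr hn.ne'
  have hc0 : 0 < c := lt_of_lt_of_le one_pos hc
  set t : ℝ := c ^ ((finrank ℝ E : ℝ)⁻¹) with ht
  have ht1 : 1 ≤ t := Real.one_le_rpow hc (inv_nonneg.mpr (Nat.cast_nonneg _))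
  have ht0 : 0 < t := lt_of_lt_of_le one_pos ht1
  have htn : t ^ finrank ℝ E = c := by
    rw [ht, ← Real.rpow_natCast, ← Real.rpow_mul hc0.le, inv_mul_cancel₀ hn', Real.rpow_one]
  have htn1 : t ^ (finrank ℝ E - 1) = c ^ (1 - (finrank ℝ E : ℝ)⁻¹) := by
    rw [ht, ← Real.rpow_natCast, ← Real.rpow_mul hc0.le]
    congr 1
    rw [Nat.cast_sub hn, Nat.cast_one]
    field_simp
  have hset : t • {x ∈ X | F x ≤ 1} = {x ∈ X | F x ≤ c} := by
    rw [smul_cone_le_one_eq hX h₁ ht0, htn]
  have := hB v t ht1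
  rwa [hset, htn, htn1] at this

end cone

end Fermat.Agent.S48lib.Cheb
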