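/-
S48 (Deligne–Serre), block Cheb (helper8): counting the elements of the fundamental cone lying in
an integral ideal `J` and in a fixed residue class modulo `m` (for `J` coprime to `m`), with a
power saving error term which is uniform in the residue class.
-/
import Fermat.Agent.S48lib.Cheb.LatticeTranslate
import Fermat.Agent.ExtVan.IdealCountError
import Fermat.Agent.ExtVan.SecondIneq.IdealSums

set_option autoImplicit false

namespace Fermat.Agent.S48lib.Cheb

open Ideal NumberField NumberField.InfinitePlace NumberField.mixedEmbedding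
  NumberField.mixedEmbedding.euclidean NumberField.mixedEmbedding.fundamentalCone
  NumberField.Units Submodule Filter Topology MeasureTheory
open scoped nonZeroDivisors Real Pointwise
open Fermat.Agent.ExtVan.IdealCount Fermat.Agent.ExtVan.SecondIneq

variable {K : Type*} [Field K] [NumberField K]

/-- the ideal `(m)` of `𝓞 K`. -/
abbrev modIdeal (K : Type*) [Field K] [NumberField K] (m : ℕ) : Ideal (𝓞 K) :=
  Ideal.span {(m : 𝓞 K)}

/-- the number of elements `a` of the fundamental cone, coming from `α ∈ J`, `α ≡ β mod m`, of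
norm at most `t`. -/
noncomputable def resCount (J : (Ideal (𝓞 K))⁰) (m : ℕ) (β : 𝓞 K ⧸ modIdeal K m) (t : ℝ) : ℕ :=
  Nat.card {a : integerSet K // (preimageOfMemIntegerSet a : 𝓞 K) ∈ (J : Ideal (𝓞 K)) ∧
    Ideal.Quotient.mk (modIdeal K m) (preimageOfMemIntegerSet a : 𝓞 K) = β ∧
    mixedEmbedding.norm (a : mixedSpace K) ≤ t}

lemma modIdeal_ne_bot {m : ℕ} (hm : m ≠ 0) : modIdeal K m ≠ ⊥ := by
  rw [Ne, Ideal.span_singleton_eq_bot]
  exact_mod_cast hm

/-- `J ⊓ (m)` as a nonzero ideal. -/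
noncomputable def infMod (J : (Ideal (𝓞 K))⁰) {m : ℕ} (hm : m ≠ 0) : (Ideal (𝓞 K))⁰ :=
  ⟨(J : Ideal (𝓞 K)) ⊓ modIdeal K m, mem_nonZeroDivisors_of_ne_zero (by
    have h1 : (J : Ideal (𝓞 K)) * modIdeal K m ≤ (J : Ideal (𝓞 K)) ⊓ modIdeal K m :=
      Ideal.mul_le_inf
    have h2 : (J : Ideal (𝓞 K)) * modIdeal K m ≠ 0 :=
      mul_ne_zero (nonZeroDivisors.ne_zero J.2) (by
        rw [Ideal.zero_eq_bot]; exact modIdeal_ne_bot hm)
    intro h
    rw [h, Ideal.zero_eq_bot, le_bot_iff] at h1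
    exact h2 h1)⟩

lemma coe_infMod (J : (Ideal (𝓞 K))⁰) {m : ℕ} (hm : m ≠ 0) :
    (infMod J hm : Ideal (𝓞 K)) = (J : Ideal (𝓞 K)) ⊓ modIdeal K m := rfl

open scoped Classical in
/-- membership in the pulled back ideal lattice. -/
lemma mem_comap_idealLattice_iff (J' : (Ideal (𝓞 K))⁰) (x : euclidean.mixedSpace K) :
    x ∈ ZLattice.comap ℝ (idealLattice K (FractionalIdeal.mk0 K J')) (toMixed K).toLinearMap ↔
      ∃ z : 𝓞 K, z ∈ (J' : Ideal (𝓞 K)) ∧ mixedEmbedding K (z : K) = toMixed K x := by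
  rw [← SetLike.mem_coe, ZLattice.coe_comap, Set.mem_preimage, SetLike.mem_coe,
    mem_idealLattice, FractionalIdeal.coe_mk0]
  constructor
  · rintro ⟨y, hy, hyx⟩
    rw [SetLike.mem_coe, FractionalIdeal.mem_coeIdeal] at hy
    obtain ⟨z, hz, rfl⟩ := hy
    exact ⟨z, hz, hyx⟩
  · rintro ⟨z, hz, hzx⟩
    refine ⟨(z : K), ?_, hzx⟩
    rw [SetLike.mem_coe, FractionalIdeal.mem_coeIdeal]
    exact ⟨z, hz, rfl⟩

/-- characterisation of the preimage of an element of `integerSet`. -/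
lemma preimage_eq_of {a : integerSet K} {α : 𝓞 K}
    (h : mixedEmbedding K (α : K) = (a : mixedSpace K)) :
    (preimageOfMemIntegerSet a : 𝓞 K) = α := by
  apply RingOfIntegers.coe_injective
  apply mixedEmbedding_injective K
  rw [h, mixedEmbedding_preimageOfMemIntegerSet]

open scoped Classical in
/-- the points of a translated lattice in the (truncated) cone correspond to the elements counted
by `resCount`. -/
theorem card_cone_inter_vadd_eq (J : (Ideal (𝓞 K))⁰) {m : ℕ} (hm : m ≠ 0) (b : 𝓞 K)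
    (hb : b ∈ (J : Ideal (𝓞 K))) (t : ℝ) :
    Nat.card ↥({x : euclidean.mixedSpace K | x ∈ (toMixed K) ⁻¹' fundamentalCone K ∧
        mixedEmbedding.norm (toMixed K x) ≤ t} ∩
      ((toMixed K).symm (mixedEmbedding K (b : K)) +ᵥ
        ((ZLattice.comap ℝ (idealLattice K (FractionalIdeal.mk0 K (infMod J hm)))
          (toMixed K).toLinearMap : Submodule ℤ (euclidean.mixedSpace K)) :
            Set (euclidean.mixedSpace K)))) =
    resCount J m (Ideal.Quotient.mk (modIdeal K m) b) t := by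
  unfold resCount
  symm
  refine Nat.card_congr (Equiv.ofBijective (fun a => ⟨(toMixed K).symm (a.1 : mixedSpace K), ?_⟩)
    ⟨?_, ?_⟩)
  · obtain ⟨⟨y, hy⟩, hJ, hβ, hn⟩ := a
    refine ⟨⟨?_, ?_⟩, ?_⟩
    · simpa using hy.1
    · simpa using hn
    · rw [Set.mem_vadd_set]
      set α : 𝓞 K := (preimageOfMemIntegerSet ⟨y, hy⟩ : 𝓞 K) with hα
      have hαy : mixedEmbedding K (α : K) = y := mixedEmbedding_preimageOfMemIntegerSet ⟨y, hy⟩
      refine ⟨(toMixed K).symm (mixedEmbedding K ((α - b : 𝓞 K) : K)), ?_, ?_⟩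
      · rw [SetLike.mem_coe, mem_comap_idealLattice_iff]
        refine ⟨α - b, ?_, by simp⟩
        rw [coe_infMod]
        exact ⟨sub_mem hJ hb, Ideal.Quotient.eq.mp hβ⟩
      · rw [vadd_eq_add, ← map_add, ← map_add]
        congr 1
        show mixedEmbedding K ((b : K) + ((α - b : 𝓞 K) : K)) = y
        rw [← hαy]
        congr 1
        push_cast
        ring
  · intro a a' h
    have h1 := congrArg Subtype.val h
    simp only [EmbeddingLike.apply_eq_iff_eq] at h1
    exact Subtype.ext (Subtype.ext h1)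
  · rintro ⟨x, ⟨hxX, hxF⟩, hxL⟩
    rw [Set.mem_vadd_set] at hxL
    obtain ⟨l, hl, hlx⟩ := hxL
    rw [SetLike.mem_coe, mem_comap_idealLattice_iff] at hl
    obtain ⟨z, hz, hzl⟩ := hl
    rw [coe_infMod] at hz
    have hx : mixedEmbedding K ((b + z : 𝓞 K) : K) = toMixed K x := by
      rw [← hlx, vadd_eq_add, map_add, ← hzl]
      simp
    have hmem : toMixed K x ∈ integerSet K :=
      mem_integerSet.mpr ⟨hxX, b + z, hx⟩
    have hpre : (preimageOfMemIntegerSet ⟨toMixed K x, hmem⟩ : 𝓞 K) = b + z :=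
      preimage_eq_of (a := ⟨toMixed K x, hmem⟩) hx
    refine ⟨⟨⟨toMixed K x, hmem⟩, ?_, ?_, hxF⟩, ?_⟩
    · rw [hpre]; exact add_mem hb hz.1
    · rw [hpre, map_add, add_eq_left, Ideal.Quotient.eq_zero_iff_mem]; exact hz.2
    · apply Subtype.ext
      simp

/-- every residue class modulo `m` has a representative in an ideal `J` coprime to `m`. -/
lemma exists_mem_mk_eq (J : Ideal (𝓞 K)) {m : ℕ} (hJm : J ⊔ modIdeal K m = ⊤)
    (β : 𝓞 K ⧸ modIdeal K m) : ∃ b ∈ J, Ideal.Quotient.mk (modIdeal K m) b = β := by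
  obtain ⟨b₀, rfl⟩ := Ideal.Quotient.mk_surjective β
  have h1 : (1 : 𝓞 K) ∈ J ⊔ modIdeal K m := by rw [hJm]; exact Submodule.mem_top
  obtain ⟨j, hj, μ, hμ, hjμ⟩ := Submodule.mem_sup.mp h1
  refine ⟨b₀ * j, Ideal.mul_mem_left _ _ hj, ?_⟩
  rw [Ideal.Quotient.eq]
  have : b₀ * j - b₀ = - (b₀ * μ) := by
    have : j = 1 - μ := by rw [← hjμ]; ring
    rw [this]; ring
  rw [this]
  exact neg_mem (Ideal.mul_mem_left _ _ hμ)

open scoped Classical in
/-- **Counting in a residue class**, with an unspecified main term constant which does not depend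
on the residue class. -/
theorem exists_bound_resCount_aux (J : (Ideal (𝓞 K))⁰) {m : ℕ} (hm : m ≠ 0)
    (hJm : (J : Ideal (𝓞 K)) ⊔ modIdeal K m = ⊤) :
    ∃ κ B : ℝ, ∀ (β : 𝓞 K ⧸ modIdeal K m) (t : ℝ), 1 ≤ t →
      |(resCount J m β t : ℝ) - κ * t| ≤ B * t ^ theta K := by
  set L := ZLattice.comap ℝ (mixedEmbedding.idealLattice K (FractionalIdeal.mk0 K (infMod J hm)))
    (toMixed K).toLinearMap with hL
  set X : Set (euclidean.mixedSpace K) := (toMixed K) ⁻¹' (fundamentalCone K) with hX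
  set F : euclidean.mixedSpace K → ℝ := fun x ↦ mixedEmbedding.norm (toMixed K x) with hF
  have hD : {x | x ∈ X ∧ F x ≤ 1} = (toMixed K) ⁻¹' (normLeOne K) := by
    ext x; simp [hX, hF]
  obtain ⟨C₀, hC₀⟩ := exists_hasCoverBound_frontier_preimage_normLeOne K
  have hcone : ∀ ⦃x⦄ ⦃r : ℝ⦄, x ∈ X → 0 < r → r • x ∈ X := fun x r hx hr => by
    rwa [hX, Set.mem_preimage, map_smul, smul_mem_iff_mem hr.ne']
  have hhom : ∀ x ⦃r : ℝ⦄, 0 ≤ r →
      F (r • x) = r ^ Module.finrank ℝ (euclidean.mixedSpace K) * F x := fun x r hr => by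
    simp only [hF]
    rw [map_smul, mixedEmbedding.norm_smul, euclidean.finrank, abs_of_nonneg hr]
  have hbdd : Bornology.IsBounded {x | x ∈ X ∧ F x ≤ 1} := by
    rw [hD]
    exact (toMixed K).antilipschitz.isBounded_preimage (isBounded_normLeOne K)
  have hcov : HasCoverBound (frontier {x | x ∈ X ∧ F x ≤ 1})
      (Module.finrank ℝ (euclidean.mixedSpace K) - 1) C₀ := by
    rw [hD, euclidean.finrank]; exact hC₀
  obtain ⟨B, hB0, hB⟩ := exists_bound_card_le_inter_vadd L hcone hhom hbdd hcov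
  rw [euclidean.finrank] at hB
  set cv : ℝ := ZLattice.covolume L with hcv
  have hcv0 : 0 < cv := ZLattice.covolume_pos L volume
  set V : ℝ := volume.real {x | x ∈ X ∧ F x ≤ 1} with hV
  refine ⟨V / cv, B / cv, fun β t ht => ?_⟩
  obtain ⟨b, hbJ, rfl⟩ := exists_mem_mk_eq (J : Ideal (𝓞 K)) hJm β
  have h1 := hB ((toMixed K).symm (mixedEmbedding K (b : K))) t ht
  rw [card_cone_inter_vadd_eq J hm b hbJ t] at h1
  have key : (resCount J m (Ideal.Quotient.mk (modIdeal K m) b) t : ℝ) - V / cv * t =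
      ((resCount J m (Ideal.Quotient.mk (modIdeal K m) b) t : ℝ) * cv - t * V) / cv := by
    field_simp
  rw [key, abs_div, abs_of_pos hcv0, div_le_iff₀ hcv0]
  refine h1.trans (le_of_eq ?_)
  unfold theta
  field_simp

end Fermat.Agent.S48lib.Cheb
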