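/-
S48 (Deligne–Serre), block Cheb (helper8): elements of the fundamental cone versus principal
ideals, with an arbitrary side condition; identification of the constant of `resCount`.
-/
import Fermat.Agent.S48lib.Cheb.ResCount
import Fermat.Agent.S48lib.Cheb.CardLemmas

set_option autoImplicit false

namespace Fermat.Agent.S48lib.Cheb

open Ideal NumberField NumberField.InfinitePlace NumberField.mixedEmbedding
  NumberField.mixedEmbedding.fundamentalCone NumberField.Units Submodule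
open scoped nonZeroDivisors Real
open Fermat.Agent.ExtVan.IdealCount Fermat.Agent.ExtVan.SecondIneq

variable {K : Type*} [Field K] [NumberField K]

/-- elements of the fundamental cone versus principal ideals, with a side condition. -/
noncomputable def integerSetPredEquiv (P : (Ideal (𝓞 K))⁰ → Prop) :
    {a : integerSet K // P (integerSetEquiv K a).1.1} ≃
      {I : (Ideal (𝓞 K))⁰ // IsPrincipal (I : Ideal (𝓞 K)) ∧ P I} × torsion K :=
  (((integerSetEquiv K).subtypeEquiv (p := fun a => P (integerSetEquiv K a).1.1)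
      (q := fun p : {I : (Ideal (𝓞 K))⁰ // IsPrincipal I.1} × torsion K => P p.1.1)
      (fun _ => Iff.rfl)).trans
    (Equiv.prodSubtypeFstEquivSubtypeProd
      (p := fun I : {I : (Ideal (𝓞 K))⁰ // IsPrincipal I.1} => P I.1))).trans
    (Equiv.prodCongrLeft fun _ => Equiv.subtypeSubtypeEquivSubtypeInter
      (fun I : (Ideal (𝓞 K))⁰ => IsPrincipal I.1) P)

/-- elements of the fundamental cone versus principal ideals, with a side condition. -/
theorem card_integerSet_pred (P : (Ideal (𝓞 K))⁰ → Prop) :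
    Nat.card {a : integerSet K // P (integerSetEquiv K a).1.1} =
      Nat.card {I : (Ideal (𝓞 K))⁰ // IsPrincipal (I : Ideal (𝓞 K)) ∧ P I} * torsionOrder K := by
  rw [torsionOrder, ← Nat.card_prod]
  exact Nat.card_congr (integerSetPredEquiv P)

/-- the norm of the ideal generated by the preimage of an element of `integerSet`. -/
lemma absNorm_integerSetEquiv (a : integerSet K) :
    absNorm ((integerSetEquiv K a).1.1 : Ideal (𝓞 K)) = intNorm a := by
  rw [integerSetEquiv_apply_fst, absNorm_span_singleton, intNorm]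

/-- there are finitely many elements of bounded norm in the fundamental cone. -/
theorem finite_integerSet_norm_le (t : ℝ) :
    Finite {a : integerSet K // mixedEmbedding.norm (a : mixedSpace K) ≤ t} := by
  have h0 : Finite {I : (Ideal (𝓞 K))⁰ // absNorm (I : Ideal (𝓞 K)) ≤ ⌊t⌋₊} :=
    (Ideal.finite_setOfPred_absNorm_le₀ (S := 𝓞 K) ⌊t⌋₊).to_subtype
  have h1 : Finite {I : (Ideal (𝓞 K))⁰ // IsPrincipal (I : Ideal (𝓞 K)) ∧
      absNorm (I : Ideal (𝓞 K)) ≤ ⌊t⌋₊} :=
    Finite.of_injective (fun I => (⟨I.1, I.2.2⟩ :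
      {I : (Ideal (𝓞 K))⁰ // absNorm (I : Ideal (𝓞 K)) ≤ ⌊t⌋₊}))
      (fun I I' h => Subtype.ext (congrArg (fun x : {I : (Ideal (𝓞 K))⁰ //
        absNorm (I : Ideal (𝓞 K)) ≤ ⌊t⌋₊} => x.1) h))
  have e := integerSetPredEquiv (K := K) (fun I => absNorm (I : Ideal (𝓞 K)) ≤ ⌊t⌋₊)
  have := Finite.of_equiv _ e.symm
  refine Finite.of_injective (fun a => (⟨a.1, ?_⟩ : {a : integerSet K //
    absNorm ((integerSetEquiv K a).1.1 : Ideal (𝓞 K)) ≤ ⌊t⌋₊})) ?_
  · rw [absNorm_integerSetEquiv]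
    apply Nat.le_floor
    rw [intNorm_coe]
    exact a.2
  · intro a a' h
    exact Subtype.ext (congrArg (fun x : {a : integerSet K //
      absNorm ((integerSetEquiv K a).1.1 : Ideal (𝓞 K)) ≤ ⌊t⌋₊} => x.1) h)

/-- elements of the fundamental cone in `J`, of bounded norm, with a side condition on the norm,
versus principal ideals divisible by `J`. -/
theorem card_integerSet_mem_norm (J : (Ideal (𝓞 K))⁰) (Q : ℕ → Prop) (t : ℝ) :
    Nat.card {a : integerSet K // ((preimageOfMemIntegerSet a : 𝓞 K) ∈ (J : Ideal (𝓞 K)) ∧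
        mixedEmbedding.norm (a : mixedSpace K) ≤ t) ∧ Q (intNorm a)} =
      Nat.card {I : (Ideal (𝓞 K))⁰ // ((J : Ideal (𝓞 K)) ∣ I ∧ IsPrincipal (I : Ideal (𝓞 K)) ∧
        (absNorm (I : Ideal (𝓞 K)) : ℝ) ≤ t) ∧ Q (absNorm (I : Ideal (𝓞 K)))} *
        torsionOrder K := by
  have h := card_integerSet_pred (K := K) (fun I => ((J : Ideal (𝓞 K)) ∣ I ∧
    (absNorm (I : Ideal (𝓞 K)) : ℝ) ≤ t) ∧ Q (absNorm (I : Ideal (𝓞 K))))
  rw [Nat.card_congr (Equiv.subtypeEquivRight (q := fun I : (Ideal (𝓞 K))⁰ =>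
    IsPrincipal (I : Ideal (𝓞 K)) ∧ ((J : Ideal (𝓞 K)) ∣ I ∧
    (absNorm (I : Ideal (𝓞 K)) : ℝ) ≤ t) ∧ Q (absNorm (I : Ideal (𝓞 K)))) fun I => by tauto)]
  rw [← h]
  refine Nat.card_congr (Equiv.subtypeEquivRight fun a => ?_)
  rw [absNorm_integerSetEquiv, intNorm_coe, integerSetEquiv_apply_fst, dvd_span_singleton]

/-- finiteness of the sets counted by `resCount` and its variants. -/
theorem finite_integerSet_mem_norm (J : (Ideal (𝓞 K))⁰) (t : ℝ) :
    Finite {a : integerSet K // (preimageOfMemIntegerSet a : 𝓞 K) ∈ (J : Ideal (𝓞 K)) ∧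
        mixedEmbedding.norm (a : mixedSpace K) ≤ t} := by
  have := finite_integerSet_norm_le (K := K) t
  exact Finite.of_injective (fun a => (⟨a.1, a.2.2⟩ :
    {a : integerSet K // mixedEmbedding.norm (a : mixedSpace K) ≤ t}))
    (fun a a' h => Subtype.ext (congrArg (fun x : {a : integerSet K //
      mixedEmbedding.norm (a : mixedSpace K) ≤ t} => x.1) h))

/-- `resCount` in the form used for fibrewise counting. -/
lemma resCount_eq (J : (Ideal (𝓞 K))⁰) (m : ℕ) (β : 𝓞 K ⧸ modIdeal K m) (t : ℝ) :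
    resCount J m β t = Nat.card {a : integerSet K //
      ((preimageOfMemIntegerSet a : 𝓞 K) ∈ (J : Ideal (𝓞 K)) ∧
        mixedEmbedding.norm (a : mixedSpace K) ≤ t) ∧
      Ideal.Quotient.mk (modIdeal K m) (preimageOfMemIntegerSet a : 𝓞 K) = β} := by
  unfold resCount
  exact Nat.card_congr (Equiv.subtypeEquivRight fun a => by tauto)

/-- fibrewise counting by residue classes modulo `m`. -/
theorem card_integerSet_eq_sum_resCount (J : (Ideal (𝓞 K))⁰) (m : ℕ)
    [Fintype (𝓞 K ⧸ modIdeal K m)] (Q : (𝓞 K ⧸ modIdeal K m) → Prop) [DecidablePred Q] (t : ℝ) :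
    Nat.card {a : integerSet K // ((preimageOfMemIntegerSet a : 𝓞 K) ∈ (J : Ideal (𝓞 K)) ∧
        mixedEmbedding.norm (a : mixedSpace K) ≤ t) ∧
        Q (Ideal.Quotient.mk (modIdeal K m) (preimageOfMemIntegerSet a : 𝓞 K))} =
      ∑ β ∈ Finset.univ.filter Q, resCount J m β t := by
  rw [natCard_fiberwise _ _ Q (finite_integerSet_mem_norm J t)]
  exact Finset.sum_congr rfl fun β _ => (resCount_eq J m β t).symm

/-- the total count over all residue classes, in terms of ideals of a class. -/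
theorem sum_resCount_eq {C : ClassGroup (𝓞 K)} (J : (Ideal (𝓞 K))⁰)
    (hJ : ClassGroup.mk0 J = C⁻¹) (m : ℕ) [Fintype (𝓞 K ⧸ modIdeal K m)] (s : ℝ) :
    ∑ β : 𝓞 K ⧸ modIdeal K m, resCount J m β (s * absNorm (J : Ideal (𝓞 K))) =
      Nat.card {I : (Ideal (𝓞 K))⁰ // absNorm (I : Ideal (𝓞 K)) ≤ s ∧ ClassGroup.mk0 I = C} *
        torsionOrder K := by
  classical
  have h1 := card_integerSet_eq_sum_resCount J m (fun _ => True)
    (s * absNorm (J : Ideal (𝓞 K)))
  rw [Finset.filter_true_of_mem (fun _ _ => trivial)] at h1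
  rw [← h1]
  have h2 := card_integerSet_mem_norm J (fun _ => True) (s * absNorm (J : Ideal (𝓞 K)))
  rw [h2, card_eq_aux₁ hJ]
  congr 1
  exact Nat.card_congr (Equiv.subtypeEquivRight fun I => by tauto)

/-- **Counting in a residue class**: for `J` coprime to `m` the number of elements of the
fundamental cone in `J`, in a fixed residue class modulo `m`, of norm at most `t` is
`w κ t / (N J #(𝓞/m)) + O(t ^ θ)`, uniformly in the residue class. -/
theorem exists_bound_resCount {C : ClassGroup (𝓞 K)} (J : (Ideal (𝓞 K))⁰)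
    (hJ : ClassGroup.mk0 J = C⁻¹) {m : ℕ} (hm : m ≠ 0)
    (hJm : (J : Ideal (𝓞 K)) ⊔ modIdeal K m = ⊤) [Fintype (𝓞 K ⧸ modIdeal K m)] :
    ∃ B : ℝ, ∀ (β : 𝓞 K ⧸ modIdeal K m) (t : ℝ), 1 ≤ t →
      |(resCount J m β t : ℝ) - (torsionOrder K * idealDensity K /
        (absNorm (J : Ideal (𝓞 K)) * Fintype.card (𝓞 K ⧸ modIdeal K m))) * t| ≤
          B * t ^ theta K := by
  obtain ⟨κ, B, h⟩ := exists_bound_resCount_aux J hm hJm
  obtain ⟨B₁, h₁⟩ := exists_bound_card_norm_le_and_mk_eq (K := K) C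
  set NJ : ℝ := (absNorm (J : Ideal (𝓞 K)) : ℝ) with hNJ
  have hNJ1 : 1 ≤ NJ := by
    rw [hNJ]; exact_mod_cast absNorm_pos_of_nonZeroDivisors J
  have hNJ0 : 0 < NJ := lt_of_lt_of_le one_pos hNJ1
  set w : ℝ := (torsionOrder K : ℝ) with hw
  have hw0 : 0 < w := by rw [hw]; exact_mod_cast (torsionOrder_pos K)
  set Q : ℝ := (Fintype.card (𝓞 K ⧸ modIdeal K m) : ℝ) with hQ
  have hQ0 : 0 < Q := by
    rw [hQ]; exact_mod_cast Fintype.card_pos
  suffices hκ : κ = w * idealDensity K / (NJ * Q) by rw [← hκ]; exact ⟨B, h⟩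
  have hB0 : 0 ≤ B := by
    have := (abs_nonneg _).trans (h 0 1 le_rfl)
    simpa using this
  have hcoef : (Q * κ * NJ - w * idealDensity K) = 0 := by
    refine eq_zero_of_abs_mul_le (theta_lt_one (K := K))
      (B := Q * B * NJ ^ theta K + w * |B₁|) fun s hs => ?_
    have hs0 : 0 < s := lt_of_lt_of_le one_pos hs
    have ht1 : 1 ≤ s * NJ := one_le_mul_of_one_le_of_one_le hs hNJ1
    have hsum : |(∑ β : 𝓞 K ⧸ modIdeal K m, (resCount J m β (s * NJ) : ℝ)) -
        Q * (κ * (s * NJ))| ≤ Q * (B * (s * NJ) ^ theta K) := by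
      have : (∑ β : 𝓞 K ⧸ modIdeal K m, (resCount J m β (s * NJ) : ℝ)) - Q * (κ * (s * NJ)) =
          ∑ β : 𝓞 K ⧸ modIdeal K m, ((resCount J m β (s * NJ) : ℝ) - κ * (s * NJ)) := by
        rw [Finset.sum_sub_distrib, Finset.sum_const, Finset.card_univ, nsmul_eq_mul]
      rw [this]
      refine (Finset.abs_sum_le_sum_abs _ _).trans ?_
      refine (Finset.sum_le_sum fun β _ => h β (s * NJ) ht1).trans (le_of_eq ?_)
      rw [Finset.sum_const, Finset.card_univ, nsmul_eq_mul]
    have hcard := sum_resCount_eq J hJ m s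
    have hcard' : (∑ β : 𝓞 K ⧸ modIdeal K m, (resCount J m β (s * NJ) : ℝ)) =
        (Nat.card {I : (Ideal (𝓞 K))⁰ // absNorm (I : Ideal (𝓞 K)) ≤ s ∧
          ClassGroup.mk0 I = C} : ℝ) * w := by
      rw [hw, ← Nat.cast_mul, ← hcard, Nat.cast_sum]
    rw [hcard'] at hsum
    have h2 := h₁ s hs
    set N : ℝ := (Nat.card {I : (Ideal (𝓞 K))⁰ // absNorm (I : Ideal (𝓞 K)) ≤ s ∧
          ClassGroup.mk0 I = C} : ℝ) with hN
    have e1 : (Q * κ * NJ - w * idealDensity K) * s =
        (N - idealDensity K * s) * w - (N * w - Q * (κ * (s * NJ))) := by ring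
    rw [e1]
    refine (abs_sub _ _).trans ?_
    rw [abs_mul, abs_of_pos hw0]
    have h3 : |N - idealDensity K * s| * w ≤ |B₁| * s ^ theta K * w :=
      mul_le_mul_of_nonneg_right (h2.trans (mul_le_mul_of_nonneg_right (le_abs_self _)
        (Real.rpow_nonneg hs0.le _))) hw0.le
    have h4 : Q * (B * (s * NJ) ^ theta K) = Q * B * NJ ^ theta K * s ^ theta K := by
      rw [Real.mul_rpow hs0.le hNJ0.le]; ring
    rw [h4] at hsum
    nlinarith [hsum, h3]
  have hne : NJ * Q ≠ 0 := (mul_pos hNJ0 hQ0).ne'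
  rw [eq_div_iff hne]
  linarith

end Fermat.Agent.S48lib.Cheb
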