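/-
S48 (Deligne–Serre), block Cheb (helper8): the norm of an element of a finite free `ℤ`-algebra,
reduced modulo `m`, only depends on the element modulo `m`.
-/
import Mathlib

set_option autoImplicit false

namespace Fermat.Agent.S48lib.Cheb

variable {S : Type*} [CommRing S] [Module.Free ℤ S] [Module.Finite ℤ S]

/-- `N(x) mod m` only depends on `x mod m`. -/
theorem norm_int_cast_eq_of_sub_mem (m : ℕ) {x y : S}
    (h : x - y ∈ Ideal.span {(m : S)}) :
    ((Algebra.norm ℤ x : ℤ) : ZMod m) = ((Algebra.norm ℤ y : ℤ) : ZMod m) := by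
  classical
  obtain ⟨z, hz⟩ := Ideal.mem_span_singleton'.mp h
  have hx : x = y + (m : ℤ) • z := by
    rw [zsmul_eq_mul, Int.cast_natCast, mul_comm, hz]; ring
  set b := Module.Free.chooseBasis ℤ S with hb
  rw [Algebra.norm_eq_matrix_det b x, Algebra.norm_eq_matrix_det b y]
  have h1 : ∀ M : Matrix (Module.Free.ChooseBasisIndex ℤ S) (Module.Free.ChooseBasisIndex ℤ S) ℤ,
      ((M.det : ℤ) : ZMod m) = ((Int.castRingHom (ZMod m)).mapMatrix M).det := fun M =>
    RingHom.map_det (Int.castRingHom (ZMod m)) M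
  rw [h1, h1, hx, map_add, map_zsmul, map_add, map_zsmul]
  have h2 : ∀ B : Matrix (Module.Free.ChooseBasisIndex ℤ S) (Module.Free.ChooseBasisIndex ℤ S)
      (ZMod m), (m : ℤ) • B = 0 := fun B => by
    ext i j
    rw [Matrix.smul_apply, zsmul_eq_mul, Int.cast_natCast, ZMod.natCast_self, zero_mul,
      Matrix.zero_apply]
  rw [h2, add_zero]

end Fermat.Agent.S48lib.Cheb
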