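/-
S48 (Deligne–Serre), block Cheb (helper8): the absolute norm of an element of a totally complex
number field is nonnegative.
-/
import Mathlib

set_option autoImplicit false

namespace Fermat.Agent.S48lib.Cheb

open NumberField NumberField.InfinitePlace NumberField.ComplexEmbedding

variable {K : Type*} [Field K] [NumberField K]

/-- the product of the values of the two complex embeddings above a complex place. -/
theorem prod_filter_mk_eq_of_isComplex [DecidableEq (InfinitePlace K)] (x : K)
    (w : InfinitePlace K) (hw : w.IsComplex) :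
    ∏ φ ∈ (Finset.univ.filter fun φ : K →+* ℂ => InfinitePlace.mk φ = w), φ x =
      ((Complex.normSq (w.embedding x) : ℝ) : ℂ) := by
  classical
  have hne : w.embedding ≠ conjugate w.embedding := by
    intro h
    have : ComplexEmbedding.IsReal w.embedding := ComplexEmbedding.isReal_iff.mpr h.symm
    exact (not_isReal_iff_isComplex.mpr hw) (isReal_iff.mpr this)
  have hset : (Finset.univ.filter fun φ : K →+* ℂ => InfinitePlace.mk φ = w) =
      {w.embedding, conjugate w.embedding} := by
    ext φ
    simp only [Finset.mem_filter, Finset.mem_univ, true_and, Finset.mem_insert,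
      Finset.mem_singleton]
    constructor
    · intro h
      have h' : InfinitePlace.mk w.embedding = InfinitePlace.mk φ := by rw [mk_embedding, h]
      rcases mk_eq_iff.mp h' with h1 | h1
      · exact Or.inl h1.symm
      · exact Or.inr h1.symm
    · rintro (rfl | rfl)
      · exact mk_embedding w
      · rw [mk_conjugate_eq, mk_embedding]
  rw [hset, Finset.prod_pair hne, conjugate_coe_eq, Complex.mul_conj]

/-- In a totally complex number field every norm is nonnegative. -/
theorem norm_rat_nonneg [IsTotallyComplex K] (x : K) : 0 ≤ Algebra.norm ℚ x := by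
  classical
  have h1 := Algebra.norm_eq_prod_embeddings ℚ ℂ x
  have h2 : ∏ σ : K →ₐ[ℚ] ℂ, σ x = ∏ φ : K →+* ℂ, φ x :=
    (Fintype.prod_equiv (RingHom.equivRatAlgHom K ℂ) (fun φ : K →+* ℂ => φ x)
      (fun σ : K →ₐ[ℚ] ℂ => σ x) fun _ => by simp [RingHom.equivRatAlgHom_apply]).symm
  rw [h2, ← Finset.prod_fiberwise Finset.univ InfinitePlace.mk (fun φ : K →+* ℂ => φ x)] at h1
  rw [Finset.prod_congr rfl fun w _ =>
    prod_filter_mk_eq_of_isComplex x w (IsTotallyComplex.isComplex w)] at h1
  rw [← Complex.ofReal_prod, eq_ratCast] at h1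
  have h3 : ((Algebra.norm ℚ x : ℚ) : ℝ) =
      ∏ w : InfinitePlace K, Complex.normSq (w.embedding x) := by
    have : (((Algebra.norm ℚ x : ℚ) : ℝ) : ℂ) =
        ((∏ w : InfinitePlace K, Complex.normSq (w.embedding x) : ℝ) : ℂ) := by
      rw [← h1]; simp
    exact_mod_cast this
  have h4 : (0 : ℝ) ≤ ((Algebra.norm ℚ x : ℚ) : ℝ) := by
    rw [h3]
    exact Finset.prod_nonneg fun w _ => Complex.normSq_nonneg _
  exact_mod_cast h4

/-- In a totally complex number field the norm of an algebraic integer is nonnegative. -/
theorem norm_int_nonneg [IsTotallyComplex K] (x : 𝓞 K) : 0 ≤ Algebra.norm ℤ x := by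
  have h := norm_rat_nonneg (K := K) (x : K)
  rw [← Algebra.coe_norm_int] at h
  exact_mod_cast h

/-- In a totally complex number field `N (x) = N_{K/ℚ} x` for algebraic integers. -/
theorem absNorm_span_singleton_eq [IsTotallyComplex K] (x : 𝓞 K) :
    (Ideal.absNorm (Ideal.span {x}) : ℤ) = Algebra.norm ℤ x := by
  rw [Ideal.absNorm_span_singleton, Int.natCast_natAbs, abs_of_nonneg (norm_int_nonneg x)]

end Fermat.Agent.S48lib.Cheb
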