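/-
S48 (Deligne–Serre), block Cheb (helper8): counting the ideals of a class whose norm lies in a
fixed residue class modulo `m`, for a totally complex field.
-/
import Fermat.Agent.S48lib.Cheb.IntCount
import Fermat.Agent.S48lib.Cheb.NormPos
import Fermat.Agent.S48lib.Cheb.NormMod
import Fermat.Agent.S48lib.Cheb.CoprimeRep

set_option autoImplicit false

namespace Fermat.Agent.S48lib.Cheb

open Ideal NumberField NumberField.InfinitePlace NumberField.mixedEmbedding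
  NumberField.mixedEmbedding.fundamentalCone NumberField.Units Submodule
open scoped nonZeroDivisors Real
open Fermat.Agent.ExtVan.IdealCount Fermat.Agent.ExtVan.SecondIneq

variable {K : Type*} [Field K] [NumberField K]

/-- the norm map `𝓞 K / m → ℤ / m`. -/
noncomputable def normBar (K : Type*) [Field K] [NumberField K] (m : ℕ)
    (β : 𝓞 K ⧸ modIdeal K m) : ZMod m :=
  ((Algebra.norm ℤ (Quotient.out β : 𝓞 K) : ℤ) : ZMod m)

lemma normBar_mk (m : ℕ) (x : 𝓞 K) :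
    normBar K m (Ideal.Quotient.mk (modIdeal K m) x) = ((Algebra.norm ℤ x : ℤ) : ZMod m) := by
  unfold normBar
  apply norm_int_cast_eq_of_sub_mem
  rw [← Ideal.Quotient.eq]
  exact Ideal.Quotient.mk_out _

lemma normBar_mul (m : ℕ) (β γ : 𝓞 K ⧸ modIdeal K m) :
    normBar K m (β * γ) = normBar K m β * normBar K m γ := by
  obtain ⟨x, rfl⟩ := Ideal.Quotient.mk_surjective β
  obtain ⟨y, rfl⟩ := Ideal.Quotient.mk_surjective γ
  rw [← map_mul, normBar_mk, normBar_mk, normBar_mk, map_mul, Int.cast_mul]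

lemma normBar_one (m : ℕ) : normBar K m 1 = 1 := by
  rw [← map_one (Ideal.Quotient.mk (modIdeal K m)), normBar_mk, map_one, Int.cast_one]

/-- for a totally complex field, the norm of an element of the cone, modulo `m`. -/
lemma intNorm_cast_eq [IsTotallyComplex K] (m : ℕ) (a : integerSet K) :
    ((intNorm a : ℕ) : ZMod m) =
      normBar K m (Ideal.Quotient.mk (modIdeal K m) (preimageOfMemIntegerSet a : 𝓞 K)) := by
  rw [normBar_mk, intNorm]
  have h := norm_int_nonneg (preimageOfMemIntegerSet a : 𝓞 K)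
  have h2 : ((Algebra.norm ℤ (preimageOfMemIntegerSet a : 𝓞 K)).natAbs : ℤ) =
      Algebra.norm ℤ (preimageOfMemIntegerSet a : 𝓞 K) := Int.natAbs_of_nonneg h
  conv_rhs => rw [← h2]
  rw [Int.cast_natCast]

/-- passing from the ideals of a class to the principal ideals divisible by `J`. -/
theorem card_class_res_eq {C : ClassGroup (𝓞 K)} (J : (Ideal (𝓞 K))⁰)
    (hJ : ClassGroup.mk0 J = C⁻¹) {m : ℕ} (u : (ZMod m)ˣ)
    (hu : (u : ZMod m) = ((absNorm (J : Ideal (𝓞 K)) : ℕ) : ZMod m)) (c : ZMod m) (s : ℝ) :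
    Nat.card {I : (Ideal (𝓞 K))⁰ // (absNorm (I : Ideal (𝓞 K)) ≤ s ∧ ClassGroup.mk0 I = C) ∧
        ((absNorm (I : Ideal (𝓞 K)) : ℕ) : ZMod m) = c} =
      Nat.card {I : (Ideal (𝓞 K))⁰ // ((J : Ideal (𝓞 K)) ∣ I ∧ IsPrincipal (I : Ideal (𝓞 K)) ∧
        (absNorm (I : Ideal (𝓞 K)) : ℝ) ≤ s * absNorm (J : Ideal (𝓞 K))) ∧
        ((absNorm (I : Ideal (𝓞 K)) : ℕ) : ZMod m) = u * c} := by
  have e2 : {I : (Ideal (𝓞 K))⁰ // ((J : Ideal (𝓞 K)) ∣ I ∧ IsPrincipal (I : Ideal (𝓞 K)) ∧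
        (absNorm (I : Ideal (𝓞 K)) : ℝ) ≤ s * absNorm (J : Ideal (𝓞 K))) ∧
        ((absNorm (I : Ideal (𝓞 K)) : ℕ) : ZMod m) = u * c} ≃
      {I : (Ideal (𝓞 K))⁰ // J ∣ I ∧ (IsPrincipal (I : Ideal (𝓞 K)) ∧
        (absNorm (I : Ideal (𝓞 K)) : ℝ) ≤ s * absNorm (J : Ideal (𝓞 K)) ∧
        ((absNorm (I : Ideal (𝓞 K)) : ℕ) : ZMod m) = u * c)} :=
    Equiv.subtypeEquivRight fun I => by
      rw [nonZeroDivisors_dvd_iff_dvd_coe]; tauto
  rw [Nat.card_congr e2]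
  refine Nat.card_congr ?_
  refine ((Equiv.dvd J).subtypeEquiv fun I ↦ ?_).trans
    (Equiv.subtypeSubtypeEquivSubtypeInter (fun I : (Ideal (𝓞 K))⁰ ↦ J ∣ I) _)
  have hNJ : (0 : ℝ) < (absNorm (J : Ideal (𝓞 K)) : ℝ) :=
    Nat.cast_pos.mpr (absNorm_pos_of_nonZeroDivisors J)
  have h1 : IsPrincipal ((J * I : (Ideal (𝓞 K))⁰) : Ideal (𝓞 K)) ↔ ClassGroup.mk0 I = C := by
    rw [← ClassGroup.mk0_eq_one_iff (SetLike.coe_mem _)]
    have : (⟨((J * I : (Ideal (𝓞 K))⁰) : Ideal (𝓞 K)), SetLike.coe_mem _⟩ : (Ideal (𝓞 K))⁰) =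
        J * I := rfl
    rw [this, map_mul, hJ, inv_mul_eq_one, eq_comm]
  have h2 : absNorm ((J * I : (Ideal (𝓞 K))⁰) : Ideal (𝓞 K)) =
      absNorm (J : Ideal (𝓞 K)) * absNorm (I : Ideal (𝓞 K)) := by
    rw [Submonoid.coe_mul, map_mul]
  rw [Equiv.dvd_apply, h1, h2, Nat.cast_mul, Nat.cast_mul, ← hu, Units.mul_right_inj,
    mul_comm s, mul_le_mul_iff_of_pos_left hNJ]
  tauto

/-- the ideals of a class with norm in a residue class, in terms of `resCount`. -/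
theorem card_class_res_mul_torsionOrder [IsTotallyComplex K] {C : ClassGroup (𝓞 K)}
    (J : (Ideal (𝓞 K))⁰) (hJ : ClassGroup.mk0 J = C⁻¹) {m : ℕ} (u : (ZMod m)ˣ)
    (hu : (u : ZMod m) = ((absNorm (J : Ideal (𝓞 K)) : ℕ) : ZMod m))
    [Fintype (𝓞 K ⧸ modIdeal K m)] [DecidableEq (ZMod m)] (c : ZMod m) (s : ℝ) :
    Nat.card {I : (Ideal (𝓞 K))⁰ // (absNorm (I : Ideal (𝓞 K)) ≤ s ∧ ClassGroup.mk0 I = C) ∧
        ((absNorm (I : Ideal (𝓞 K)) : ℕ) : ZMod m) = c} * torsionOrder K =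
      ∑ β ∈ Finset.univ.filter (fun β : 𝓞 K ⧸ modIdeal K m => normBar K m β = u * c),
        resCount J m β (s * absNorm (J : Ideal (𝓞 K))) := by
  rw [card_class_res_eq J hJ u hu c s,
    ← card_integerSet_mem_norm J (fun n => ((n : ℕ) : ZMod m) = u * c),
    ← card_integerSet_eq_sum_resCount J m (fun β => normBar K m β = u * c)]
  refine Nat.card_congr (Equiv.subtypeEquivRight fun a => ?_)
  rw [intNorm_cast_eq]

/-- **Ideals of a class with norm in a residue class**: for a totally complex field,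
`#{I ∈ C : N I ≤ s, N I ≡ c mod m} = (κ / #(𝓞/m)) #{β ∈ 𝓞/m : N β = N J · c} s + O(s ^ θ)`,
where `J` is an integral ideal of the inverse class which is coprime to `m`. -/
theorem exists_bound_card_class_res [IsTotallyComplex K] {C : ClassGroup (𝓞 K)}
    (J : (Ideal (𝓞 K))⁰) (hJ : ClassGroup.mk0 J = C⁻¹) {m : ℕ} (hm : m ≠ 0)
    (hJm : (J : Ideal (𝓞 K)) ⊔ modIdeal K m = ⊤) (u : (ZMod m)ˣ)
    (hu : (u : ZMod m) = ((absNorm (J : Ideal (𝓞 K)) : ℕ) : ZMod m))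
    [Fintype (𝓞 K ⧸ modIdeal K m)] [DecidableEq (ZMod m)] :
    ∃ B : ℝ, 0 ≤ B ∧ ∀ (c : ZMod m) (s : ℝ), 1 ≤ s →
      |(Nat.card {I : (Ideal (𝓞 K))⁰ // (absNorm (I : Ideal (𝓞 K)) ≤ s ∧
          ClassGroup.mk0 I = C) ∧ ((absNorm (I : Ideal (𝓞 K)) : ℕ) : ZMod m) = c} : ℝ) -
        idealDensity K / Fintype.card (𝓞 K ⧸ modIdeal K m) *
          ((Finset.univ.filter
            (fun β : 𝓞 K ⧸ modIdeal K m => normBar K m β = u * c)).card : ℝ) * s| ≤
        B * s ^ theta K := by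
  obtain ⟨B, hB⟩ := exists_bound_resCount J hJ hm hJm
  set NJ : ℝ := (absNorm (J : Ideal (𝓞 K)) : ℝ) with hNJ
  have hNJ1 : 1 ≤ NJ := by
    rw [hNJ]; exact_mod_cast absNorm_pos_of_nonZeroDivisors J
  have hNJ0 : 0 < NJ := lt_of_lt_of_le one_pos hNJ1
  set w : ℝ := (torsionOrder K : ℝ) with hw
  have hw0 : 0 < w := by rw [hw]; exact_mod_cast (torsionOrder_pos K)
  set Q : ℝ := (Fintype.card (𝓞 K ⧸ modIdeal K m) : ℝ) with hQ
  have hQ0 : 0 < Q := by
    rw [hQ]; exact_mod_cast Fintype.card_pos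
  have hB0 : 0 ≤ B := by
    have := (abs_nonneg _).trans (hB 0 1 le_rfl)
    simpa using this
  refine ⟨Q * B * NJ ^ theta K / w, by positivity, fun c s hs => ?_⟩
  have hs0 : 0 < s := lt_of_lt_of_le one_pos hs
  have ht1 : 1 ≤ s * NJ := one_le_mul_of_one_le_of_one_le hs hNJ1
  set T := Finset.univ.filter (fun β : 𝓞 K ⧸ modIdeal K m => normBar K m β = u * c) with hT
  set N : ℝ := (Nat.card {I : (Ideal (𝓞 K))⁰ // (absNorm (I : Ideal (𝓞 K)) ≤ s ∧
    ClassGroup.mk0 I = C) ∧ ((absNorm (I : Ideal (𝓞 K)) : ℕ) : ZMod m) = c} : ℝ) with hN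
  have hcard : N * w = ∑ β ∈ T, (resCount J m β (s * NJ) : ℝ) := by
    rw [hN, hw, ← Nat.cast_mul, card_class_res_mul_torsionOrder J hJ u hu c s, Nat.cast_sum]
  have hTQ : (T.card : ℝ) ≤ Q := by
    rw [hQ]; exact_mod_cast Finset.card_le_univ T
  have hsum : |N * w - (T.card : ℝ) * (w * idealDensity K / (NJ * Q) * (s * NJ))| ≤
      (T.card : ℝ) * (B * (s * NJ) ^ theta K) := by
    rw [hcard]
    have : (∑ β ∈ T, (resCount J m β (s * NJ) : ℝ)) -
        (T.card : ℝ) * (w * idealDensity K / (NJ * Q) * (s * NJ)) =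
        ∑ β ∈ T, ((resCount J m β (s * NJ) : ℝ) -
          w * idealDensity K / (NJ * Q) * (s * NJ)) := by
      rw [Finset.sum_sub_distrib, Finset.sum_const, nsmul_eq_mul]
    rw [this]
    refine (Finset.abs_sum_le_sum_abs _ _).trans ?_
    refine (Finset.sum_le_sum fun β _ => hB β (s * NJ) ht1).trans (le_of_eq ?_)
    rw [Finset.sum_const, nsmul_eq_mul]
  have e1 : N - idealDensity K / Q * (T.card : ℝ) * s =
      (N * w - (T.card : ℝ) * (w * idealDensity K / (NJ * Q) * (s * NJ))) / w := by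
    field_simp
  rw [e1, abs_div, abs_of_pos hw0, div_le_iff₀ hw0]
  refine hsum.trans ?_
  rw [Real.mul_rpow hs0.le hNJ0.le]
  have h5 : 0 ≤ B * (s ^ theta K * NJ ^ theta K) := by positivity
  calc (T.card : ℝ) * (B * (s ^ theta K * NJ ^ theta K))
      ≤ Q * (B * (s ^ theta K * NJ ^ theta K)) := mul_le_mul_of_nonneg_right hTQ h5
    _ = Q * B * NJ ^ theta K / w * s ^ theta K * w := by field_simp

end Fermat.Agent.S48lib.Cheb
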