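/-
S48 (Deligne–Serre), block Cheb (helper8): ideals coprime to `m`, units modulo `m`, and the
character `I ↦ χ (N I mod m)` on ideals.
-/
import Fermat.Agent.S48lib.Cheb.ClassResCount

set_option autoImplicit false

namespace Fermat.Agent.S48lib.Cheb

open Ideal NumberField Submodule
open scoped nonZeroDivisors

variable {K : Type*} [Field K] [NumberField K]

/-- an element generating an ideal coprime to `m` is a unit modulo `m`. -/
lemma isUnit_mk_of_sup_eq_top {m : ℕ} {x : 𝓞 K}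
    (h : Ideal.span {x} ⊔ modIdeal K m = ⊤) :
    IsUnit (Ideal.Quotient.mk (modIdeal K m) x) := by
  have h1 : (1 : 𝓞 K) ∈ Ideal.span {x} ⊔ modIdeal K m := by rw [h]; exact Submodule.mem_top
  obtain ⟨y, hy, μ, hμ, hyμ⟩ := Submodule.mem_sup.mp h1
  obtain ⟨z, rfl⟩ := Ideal.mem_span_singleton'.mp hy
  refine IsUnit.of_mul_eq_one (Ideal.Quotient.mk (modIdeal K m) z) ?_
  rw [← map_mul, ← map_one (Ideal.Quotient.mk (modIdeal K m)), Ideal.Quotient.eq]
  have : x * z - 1 = -μ := by rw [← hyμ]; ring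
  rw [this]
  exact neg_mem hμ

/-- the norm of a unit modulo `m` is a unit modulo `m`. -/
lemma isUnit_normBar {m : ℕ} {β : 𝓞 K ⧸ modIdeal K m} (h : IsUnit β) :
    IsUnit (normBar K m β) := by
  obtain ⟨v, rfl⟩ := h
  refine IsUnit.of_mul_eq_one (normBar K m ((v⁻¹ : (𝓞 K ⧸ modIdeal K m)ˣ) : 𝓞 K ⧸ modIdeal K m)) ?_
  rw [← normBar_mul, Units.mul_inv, normBar_one]

omit [NumberField K] in
/-- products of ideals coprime to `𝔪` are coprime to `𝔪`. -/
lemma mul_sup_eq_top {I I' 𝔪 : Ideal (𝓞 K)} (h : I ⊔ 𝔪 = ⊤) (h' : I' ⊔ 𝔪 = ⊤) :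
    I * I' ⊔ 𝔪 = ⊤ := by
  rw [← Ideal.isCoprime_iff_sup_eq] at h h' ⊢
  exact IsCoprime.mul_left h h'

/-- the norm of an ideal coprime to `m` is a unit modulo `m`. -/
theorem isUnit_absNorm_cast {m : ℕ} (hm : m ≠ 0) (J : (Ideal (𝓞 K))⁰)
    (hJ : (J : Ideal (𝓞 K)) ⊔ modIdeal K m = ⊤) :
    IsUnit (((absNorm (J : Ideal (𝓞 K)) : ℕ) : ZMod m)) := by
  obtain ⟨J', hJ', hJ'm⟩ := exists_mk0_eq_and_sup_eq_top (ClassGroup.mk0 J)⁻¹ (modIdeal K m)
    (modIdeal_ne_bot hm)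
  have hprin : IsPrincipal ((J * J' : (Ideal (𝓞 K))⁰) : Ideal (𝓞 K)) := by
    rw [← ClassGroup.mk0_eq_one_iff (SetLike.coe_mem _)]
    have : (⟨((J * J' : (Ideal (𝓞 K))⁰) : Ideal (𝓞 K)), SetLike.coe_mem _⟩ : (Ideal (𝓞 K))⁰) =
        J * J' := rfl
    rw [this, map_mul, hJ', mul_inv_cancel]
  obtain ⟨γ, hγ⟩ := hprin.principal
  rw [Submonoid.coe_mul, submodule_span_eq] at hγ
  have hcop : Ideal.span {γ} ⊔ modIdeal K m = ⊤ := by
    rw [← hγ]; exact mul_sup_eq_top hJ hJ'm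
  have h1 := isUnit_normBar (isUnit_mk_of_sup_eq_top hcop)
  rw [normBar_mk] at h1
  have h2 : IsUnit (((absNorm (Ideal.span {γ}) : ℕ) : ZMod m)) := by
    rw [absNorm_span_singleton]
    have key : ∀ n : ℤ, IsUnit ((n : ℤ) : ZMod m) → IsUnit ((n.natAbs : ℕ) : ZMod m) := by
      intro n hn
      obtain ⟨k, rfl | rfl⟩ := Int.eq_nat_or_neg n
      · simpa using hn
      · simpa using hn
    exact key _ h1
  rw [← hγ, map_mul, Nat.cast_mul] at h2
  exact isUnit_of_mul_isUnit_left h2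

end Fermat.Agent.S48lib.Cheb
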