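/-
S48 (Deligne–Serre), block Cheb (helper8): Weber's counting.  For a totally complex number field
`K` and a character `χ` modulo `m` such that `χ (N 𝔞) ∉ {0, 1}` for some ideal `𝔞`, the partial
sums `∑_{N I ≤ n} χ (N I)` are `O(n ^ θ)`, `θ = 1 - 1/[K:ℚ]`.
-/
import Fermat.Agent.S48lib.Cheb.CoprimeUnits

set_option autoImplicit false
set_option linter.unusedSectionVars false

namespace Fermat.Agent.S48lib.Cheb

open Ideal NumberField Submodule Finset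
open scoped nonZeroDivisors
open Fermat.Agent.ExtVan.IdealCount Fermat.Agent.ExtVan.SecondIneq

variable {K : Type*} [Field K] [NumberField K] {m : ℕ}

/-- the function `I ↦ χ (N I mod m)` on nonzero ideals. -/
noncomputable def idealChar (χ : MulChar (ZMod m) ℂ) (I : (Ideal (𝓞 K))⁰) : ℂ :=
  χ (((absNorm (I : Ideal (𝓞 K)) : ℕ) : ZMod m))

lemma idealChar_mul (χ : MulChar (ZMod m) ℂ) (I J : (Ideal (𝓞 K))⁰) :
    idealChar χ (I * J) = idealChar χ I * idealChar χ J := by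
  unfold idealChar
  rw [Submonoid.coe_mul, map_mul, Nat.cast_mul, map_mul]

lemma idealChar_one (χ : MulChar (ZMod m) ℂ) : idealChar χ (1 : (Ideal (𝓞 K))⁰) = 1 := by
  unfold idealChar
  rw [OneMemClass.coe_one, map_one, Nat.cast_one, map_one]

lemma norm_idealChar_le [NeZero m] (χ : MulChar (ZMod m) ℂ) (I : (Ideal (𝓞 K))⁰) :
    ‖idealChar χ I‖ ≤ 1 :=
  DirichletCharacter.norm_le_one χ _

section mainTerm

variable [Fintype (𝓞 K ⧸ modIdeal K m)] [NeZero m]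

/-- the main term of the count, summed against the character. -/
lemma sum_char_mul_card_filter (χ : MulChar (ZMod m) ℂ) (u : (ZMod m)ˣ) :
    ∑ c : ZMod m, χ c * ((Finset.univ.filter
        (fun β : 𝓞 K ⧸ modIdeal K m => normBar K m β = u * c)).card : ℂ) =
      χ ((u⁻¹ : (ZMod m)ˣ) : ZMod m) * ∑ β : 𝓞 K ⧸ modIdeal K m, χ (normBar K m β) := by
  classical
  have h1 : ∀ c : ZMod m, χ c * ((Finset.univ.filter
        (fun β : 𝓞 K ⧸ modIdeal K m => normBar K m β = u * c)).card : ℂ) =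
      ∑ β : 𝓞 K ⧸ modIdeal K m, if normBar K m β = u * c then χ c else 0 := fun c => by
    rw [Finset.card_filter, Nat.cast_sum, Finset.mul_sum]
    refine Finset.sum_congr rfl fun β _ => ?_
    split_ifs <;> simp
  rw [Finset.sum_congr rfl fun c _ => h1 c, Finset.sum_comm, Finset.mul_sum]
  refine Finset.sum_congr rfl fun β _ => ?_
  have h2 : ∀ c : ZMod m, (normBar K m β = u * c) ↔
      (c = ((u⁻¹ : (ZMod m)ˣ) : ZMod m) * normBar K m β) := fun c => by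
    constructor
    · intro h; rw [h, Units.inv_mul_cancel_left]
    · intro h; rw [h, Units.mul_inv_cancel_left]
  simp_rw [h2]
  rw [Finset.sum_ite_eq' Finset.univ, if_pos (Finset.mem_univ _), map_mul]

/-- if the character is nontrivial on the norm of some unit modulo `m`, the complete character
sum over `𝓞 K / m` vanishes. -/
lemma sum_char_normBar_eq_zero (χ : MulChar (ZMod m) ℂ) (β₀ : (𝓞 K ⧸ modIdeal K m)ˣ)
    (h : χ (normBar K m (β₀ : 𝓞 K ⧸ modIdeal K m)) ≠ 1) :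
    ∑ β : 𝓞 K ⧸ modIdeal K m, χ (normBar K m β) = 0 := by
  have h1 : ∑ β : 𝓞 K ⧸ modIdeal K m, χ (normBar K m β) =
      ∑ β : 𝓞 K ⧸ modIdeal K m, χ (normBar K m ((β₀ : 𝓞 K ⧸ modIdeal K m) * β)) :=
    (Fintype.sum_equiv (Units.mulLeft β₀) _ _ fun β => rfl).symm
  simp_rw [normBar_mul, map_mul] at h1
  rw [← Finset.mul_sum] at h1
  have h2 : (1 - χ (normBar K m (β₀ : 𝓞 K ⧸ modIdeal K m))) *
      ∑ β : 𝓞 K ⧸ modIdeal K m, χ (normBar K m β) = 0 := by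
    rw [sub_mul, one_mul, ← h1, sub_self]
  rcases mul_eq_zero.mp h2 with h3 | h3
  · exact absurd (sub_eq_zero.mp h3).symm h
  · exact h3

end mainTerm

section classInvariance

variable [IsTotallyComplex K]

/-- `χ (N (γ)) = χ (N̄ γ)` for a totally complex field. -/
lemma idealChar_eq_of_span_eq (χ : MulChar (ZMod m) ℂ) {I : (Ideal (𝓞 K))⁰} {γ : 𝓞 K}
    (hγ : (I : Ideal (𝓞 K)) = Ideal.span {γ}) :
    idealChar χ I = χ (normBar K m (Ideal.Quotient.mk (modIdeal K m) γ)) := by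
  unfold idealChar
  rw [normBar_mk, hγ, ← absNorm_span_singleton_eq γ, Int.cast_natCast]

/-- if `χ ∘ N̄` is trivial on the units modulo `m`, then `χ ∘ N` is trivial on the principal
ideals coprime to `m`. -/
lemma idealChar_eq_one_of_isPrincipal (χ : MulChar (ZMod m) ℂ)
    (h2 : ∀ β₀ : (𝓞 K ⧸ modIdeal K m)ˣ, χ (normBar K m (β₀ : 𝓞 K ⧸ modIdeal K m)) = 1)
    {I : (Ideal (𝓞 K))⁰} (hI : (I : Ideal (𝓞 K)) ⊔ modIdeal K m = ⊤)
    (hp : IsPrincipal (I : Ideal (𝓞 K))) : idealChar χ I = 1 := by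
  obtain ⟨γ, hγ⟩ := hp.principal
  rw [submodule_span_eq] at hγ
  rw [idealChar_eq_of_span_eq χ hγ]
  rw [hγ] at hI
  obtain ⟨v, hv⟩ := isUnit_mk_of_sup_eq_top hI
  rw [← hv]
  exact h2 v

/-- if `χ ∘ N̄` is trivial on the units modulo `m`, then `χ ∘ N` only depends on the ideal class,
on ideals coprime to `m`. -/
lemma idealChar_eq_of_mk0_eq (hm : m ≠ 0) (χ : MulChar (ZMod m) ℂ)
    (h2 : ∀ β₀ : (𝓞 K ⧸ modIdeal K m)ˣ, χ (normBar K m (β₀ : 𝓞 K ⧸ modIdeal K m)) = 1)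
    {I I' : (Ideal (𝓞 K))⁰} (hI : (I : Ideal (𝓞 K)) ⊔ modIdeal K m = ⊤)
    (hI' : (I' : Ideal (𝓞 K)) ⊔ modIdeal K m = ⊤)
    (h : ClassGroup.mk0 I = ClassGroup.mk0 I') : idealChar χ I = idealChar χ I' := by
  obtain ⟨J, hJ, hJm⟩ := exists_mk0_eq_and_sup_eq_top (ClassGroup.mk0 I)⁻¹ (modIdeal K m)
    (modIdeal_ne_bot hm)
  have hprin : ∀ I₁ : (Ideal (𝓞 K))⁰, ClassGroup.mk0 I₁ = ClassGroup.mk0 I →
      IsPrincipal ((I₁ * J : (Ideal (𝓞 K))⁰) : Ideal (𝓞 K)) := fun I₁ h₁ => by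
    rw [← ClassGroup.mk0_eq_one_iff (SetLike.coe_mem _)]
    have : (⟨((I₁ * J : (Ideal (𝓞 K))⁰) : Ideal (𝓞 K)), SetLike.coe_mem _⟩ :
        (Ideal (𝓞 K))⁰) = I₁ * J := rfl
    rw [this, map_mul, hJ, h₁, mul_inv_cancel]
  have hcop : ∀ I₁ : (Ideal (𝓞 K))⁰, (I₁ : Ideal (𝓞 K)) ⊔ modIdeal K m = ⊤ →
      ((I₁ * J : (Ideal (𝓞 K))⁰) : Ideal (𝓞 K)) ⊔ modIdeal K m = ⊤ := fun I₁ h₁ => by
    rw [Submonoid.coe_mul]; exact mul_sup_eq_top h₁ hJm
  have e1 := idealChar_eq_one_of_isPrincipal χ h2 (hcop I hI) (hprin I rfl)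
  have e2 := idealChar_eq_one_of_isPrincipal χ h2 (hcop I' hI') (hprin I' h.symm)
  rw [idealChar_mul] at e1 e2
  have hJ0 : idealChar χ J ≠ 0 := by
    intro h0; rw [h0, mul_zero] at e1; exact zero_ne_one e1
  exact mul_right_cancel₀ hJ0 (e1.trans e2.symm)

/-- an ideal with `χ (N 𝔞) ≠ 0` is coprime to `m`. -/
lemma sup_eq_top_of_idealChar_ne_zero [NeZero m] (χ : MulChar (ZMod m) ℂ) {𝔞 : (Ideal (𝓞 K))⁰}
    (h : idealChar χ 𝔞 ≠ 0) : (𝔞 : Ideal (𝓞 K)) ⊔ modIdeal K m = ⊤ := by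
  have hu : IsUnit (((absNorm (𝔞 : Ideal (𝓞 K)) : ℕ) : ZMod m)) := by
    by_contra hn
    exact h (χ.map_nonunit hn)
  have hcop : Nat.Coprime (absNorm (𝔞 : Ideal (𝓞 K))) m := (ZMod.isUnit_iff_coprime _ _).mp hu
  rw [Ideal.eq_top_iff_one]
  have hb := Nat.isCoprime_iff_coprime.mpr hcop
  obtain ⟨x, y, hxy⟩ := hb
  have h1 : ((x * (absNorm (𝔞 : Ideal (𝓞 K)) : ℤ) + y * (m : ℤ) : ℤ) : 𝓞 K) = 1 := by
    rw [hxy, Int.cast_one]
  rw [← h1]
  push_cast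
  refine Submodule.add_mem_sup (Ideal.mul_mem_left _ _ ?_) (Ideal.mul_mem_left _ _ ?_)
  · exact Ideal.absNorm_mem _
  · exact Ideal.mem_span_singleton_self _

end classInvariance

section final

variable [NeZero m]

/-- the partial sums of `χ ∘ N`, sorted by ideal class and residue class of the norm. -/
lemma sum_idealsLE_idealChar (χ : MulChar (ZMod m) ℂ) (n : ℕ) :
    ∑ I ∈ idealsLE K n, idealChar χ I =
      ∑ p : ClassGroup (𝓞 K) × ZMod m,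
        (Nat.card {I : (Ideal (𝓞 K))⁰ // ((absNorm (I : Ideal (𝓞 K)) : ℝ) ≤ (n : ℝ) ∧
          ClassGroup.mk0 I = p.1) ∧ ((absNorm (I : Ideal (𝓞 K)) : ℕ) : ZMod m) = p.2} : ℂ) *
          χ p.2 := by
  classical
  rw [← Finset.sum_fiberwise (idealsLE K n) (fun I : (Ideal (𝓞 K))⁰ =>
    ((ClassGroup.mk0 I, ((absNorm (I : Ideal (𝓞 K)) : ℕ) : ZMod m)) :
      ClassGroup (𝓞 K) × ZMod m))]
  refine Finset.sum_congr rfl fun p _ => ?_
  have hcard : Nat.card {I : (Ideal (𝓞 K))⁰ // ((absNorm (I : Ideal (𝓞 K)) : ℝ) ≤ (n : ℝ) ∧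
      ClassGroup.mk0 I = p.1) ∧ ((absNorm (I : Ideal (𝓞 K)) : ℕ) : ZMod m) = p.2} =
      ((idealsLE K n).filter fun I : (Ideal (𝓞 K))⁰ =>
        ((ClassGroup.mk0 I, ((absNorm (I : Ideal (𝓞 K)) : ℕ) : ZMod m)) :
          ClassGroup (𝓞 K) × ZMod m) = p).card := by
    refine Nat.subtype_card _ fun I => ?_
    rw [Finset.mem_filter, mem_idealsLE, Prod.ext_iff, Nat.cast_le]
    tauto
  rw [hcard, ← nsmul_eq_mul, ← Finset.sum_const]
  refine Finset.sum_congr rfl fun I hI => ?_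
  rw [Finset.mem_filter] at hI
  unfold idealChar
  rw [← hI.2]

/-- **Weber's counting**: for a totally complex field and a character `χ` modulo `m` such that
`χ (N 𝔞) ∉ {0, 1}` for some ideal `𝔞`, the partial sums of `χ ∘ N` over ideals are
`O(n ^ θ)`. -/
theorem exists_bound_sum_idealChar [IsTotallyComplex K] (χ : MulChar (ZMod m) ℂ)
    (h : ∃ 𝔞 : (Ideal (𝓞 K))⁰, idealChar χ 𝔞 ≠ 0 ∧ idealChar χ 𝔞 ≠ 1) :
    ∃ B : ℝ, 0 ≤ B ∧ ∀ n : ℕ, 1 ≤ n →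
      ‖∑ I ∈ idealsLE K n, idealChar χ I‖ ≤ B * (n : ℝ) ^ theta K := by
  classical
  have hm : m ≠ 0 := NeZero.ne m
  have hfin : Finite (𝓞 K ⧸ modIdeal K m) :=
    Ideal.finiteQuotientOfFreeOfNeBot _ (modIdeal_ne_bot hm)
  letI : Fintype (𝓞 K ⧸ modIdeal K m) := Fintype.ofFinite _
  choose J hJ hJm using fun C : ClassGroup (𝓞 K) =>
    exists_mk0_eq_and_sup_eq_top C⁻¹ (modIdeal K m) (modIdeal_ne_bot hm)
  have hunit : ∀ C : ClassGroup (𝓞 K),
      ∃ v : (ZMod m)ˣ, (v : ZMod m) = ((absNorm (J C : Ideal (𝓞 K)) : ℕ) : ZMod m) :=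
    fun C => isUnit_absNorm_cast hm (J C) (hJm C)
  choose u hu using hunit
  choose B hB0 hB using fun C : ClassGroup (𝓞 K) =>
    exists_bound_card_class_res (J C) (hJ C) hm (hJm C) (u C) (hu C)
  -- the main term vanishes
  have hmain : ∑ p : ClassGroup (𝓞 K) × ZMod m, χ p.2 * ((Finset.univ.filter
      (fun β : 𝓞 K ⧸ modIdeal K m => normBar K m β = u p.1 * p.2)).card : ℂ) = 0 := by
    rw [Fintype.sum_prod_type]
    simp_rw [sum_char_mul_card_filter]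
    rw [← Finset.sum_mul]
    by_cases hS : ∃ β₀ : (𝓞 K ⧸ modIdeal K m)ˣ,
        χ (normBar K m (β₀ : 𝓞 K ⧸ modIdeal K m)) ≠ 1
    · obtain ⟨β₀, hβ₀⟩ := hS
      rw [sum_char_normBar_eq_zero χ β₀ hβ₀, mul_zero]
    · push Not at hS
      obtain ⟨𝔞, h𝔞0, h𝔞1⟩ := h
      have h𝔞m := sup_eq_top_of_idealChar_ne_zero χ h𝔞0
      have hval : ∀ C, idealChar χ (J C) = χ ((u C : (ZMod m)ˣ) : ZMod m) := fun C => by
        unfold idealChar; rw [hu C]
      have hinv : ∀ C, χ (((u C)⁻¹ : (ZMod m)ˣ) : ZMod m) = (idealChar χ (J C))⁻¹ := fun C => by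
        rw [hval C]
        refine eq_inv_of_mul_eq_one_left ?_
        rw [← map_mul, ← Units.val_mul, inv_mul_cancel, Units.val_one, map_one]
      have hshift : ∀ C, idealChar χ (J (C * (ClassGroup.mk0 𝔞)⁻¹)) =
          idealChar χ (J C) * idealChar χ 𝔞 := fun C => by
        rw [← idealChar_mul]
        refine idealChar_eq_of_mk0_eq hm χ hS (hJm _) ?_ ?_
        · rw [Submonoid.coe_mul]; exact mul_sup_eq_top (hJm C) h𝔞m
        · rw [hJ, map_mul, hJ, mul_inv, inv_inv, mul_comm]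
      have hsum : ∑ C : ClassGroup (𝓞 K), χ (((u C)⁻¹ : (ZMod m)ˣ) : ZMod m) =
          (idealChar χ 𝔞)⁻¹ * ∑ C : ClassGroup (𝓞 K), χ (((u C)⁻¹ : (ZMod m)ˣ) : ZMod m) := by
        conv_lhs => rw [← Fintype.sum_equiv (Equiv.mulRight (ClassGroup.mk0 𝔞)⁻¹)
          (fun C => χ (((u (C * (ClassGroup.mk0 𝔞)⁻¹))⁻¹ : (ZMod m)ˣ) : ZMod m))
          (fun C => χ (((u C)⁻¹ : (ZMod m)ˣ) : ZMod m)) (fun C => rfl)]
        rw [Finset.mul_sum]
        refine Finset.sum_congr rfl fun C _ => ?_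
        rw [hinv, hinv, hshift, mul_inv, mul_comm]
      have h3 : (1 - (idealChar χ 𝔞)⁻¹) *
          ∑ C : ClassGroup (𝓞 K), χ (((u C)⁻¹ : (ZMod m)ˣ) : ZMod m) = 0 := by
        rw [sub_mul, one_mul, ← hsum, sub_self]
      rcases mul_eq_zero.mp h3 with h4 | h4
      · exfalso
        apply h𝔞1
        have := (sub_eq_zero.mp h4).symm
        rwa [inv_eq_one] at this
      · rw [h4, zero_mul]
  refine ⟨∑ p : ClassGroup (𝓞 K) × ZMod m, B p.1,
    Finset.sum_nonneg fun p _ => hB0 p.1, fun n hn => ?_⟩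
  have hn1 : (1 : ℝ) ≤ (n : ℝ) := by exact_mod_cast hn
  set c₀ : ℝ := idealDensity K / Fintype.card (𝓞 K ⧸ modIdeal K m) with hc₀
  have hzero : ∑ p : ClassGroup (𝓞 K) × ZMod m, (((c₀ * ((Finset.univ.filter
      (fun β : 𝓞 K ⧸ modIdeal K m => normBar K m β = u p.1 * p.2)).card : ℝ) * (n : ℝ) : ℝ)) : ℂ)
        * χ p.2 = 0 := by
    have : ∀ p : ClassGroup (𝓞 K) × ZMod m, (((c₀ * ((Finset.univ.filter
        (fun β : 𝓞 K ⧸ modIdeal K m => normBar K m β = u p.1 * p.2)).card : ℝ) * (n : ℝ) : ℝ)) : ℂ)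
          * χ p.2 = ((c₀ * (n : ℝ) : ℝ) : ℂ) * (χ p.2 * ((Finset.univ.filter
        (fun β : 𝓞 K ⧸ modIdeal K m => normBar K m β = u p.1 * p.2)).card : ℂ)) := fun p => by
      push_cast; ring
    rw [Finset.sum_congr rfl fun p _ => this p, ← Finset.mul_sum, hmain, mul_zero]
  rw [sum_idealsLE_idealChar, ← sub_zero (∑ p : ClassGroup (𝓞 K) × ZMod m, _), ← hzero,
    ← Finset.sum_sub_distrib, Finset.sum_mul]
  refine (norm_sum_le _ _).trans (Finset.sum_le_sum fun p _ => ?_)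
  rw [← sub_mul, norm_mul]
  have h1 := hB p.1 p.2 (n : ℝ) hn1
  have h2 : ‖χ p.2‖ ≤ 1 := DirichletCharacter.norm_le_one χ _
  have h3 : ‖((Nat.card {I : (Ideal (𝓞 K))⁰ // ((absNorm (I : Ideal (𝓞 K)) : ℝ) ≤ (n : ℝ) ∧
      ClassGroup.mk0 I = p.1) ∧ ((absNorm (I : Ideal (𝓞 K)) : ℕ) : ZMod m) = p.2} : ℂ)) -
      (((c₀ * ((Finset.univ.filter
      (fun β : 𝓞 K ⧸ modIdeal K m => normBar K m β = u p.1 * p.2)).card : ℝ) * (n : ℝ) : ℝ)) : ℂ)‖
      ≤ B p.1 * (n : ℝ) ^ theta K := by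
    rw [← Complex.ofReal_natCast, ← Complex.ofReal_sub, Complex.norm_real, Real.norm_eq_abs]
    exact h1
  calc _ ≤ (B p.1 * (n : ℝ) ^ theta K) * 1 :=
        mul_le_mul h3 h2 (norm_nonneg _) (by have := hB0 p.1; positivity)
    _ = B p.1 * (n : ℝ) ^ theta K := mul_one _

end final

end Fermat.Agent.S48lib.Cheb
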