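/-
S48 (Deligne–Serre), block Cheb (helper8): the `L`-series `L(s, χ ∘ N) = ∑_I χ(N I) (N I)^(-s)` of
a Dirichlet character composed with the absolute norm of ideals of a number field, for real
`s > 1`: Euler product (exponential form), comparison of its logarithm with the prime sum
(including the imaginary part), continuity of the logarithm, and continuous extension to `[1, 2]`
when the partial sums of `χ ∘ N` have a power saving.
-/
import Fermat.Agent.S48lib.Cheb.Weber
import Fermat.Agent.S48lib.Cheb.Analysis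
import Fermat.Agent.ExtVan.SecondIneq.CharBound

set_option autoImplicit false
set_option linter.unusedSectionVars false

noncomputable section

namespace Fermat.Agent.S48lib.Cheb

open NumberField IsDedekindDomain Ideal nonZeroDivisors Filter Topology Finset
open Fermat.Agent.ExtVan.SecondIneq Fermat.Agent.ExtVan.SecondIneq.LS
open scoped Classical

variable (K : Type*) [Field K] [NumberField K] {m : ℕ} (χ : MulChar (ZMod m) ℂ)

/-- `I ↦ χ (N I mod m)` as a completely multiplicative function on all ideals (`0` at `⊥`). -/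
def normChar : Ideal (𝓞 K) →*₀ ℂ where
  toFun I := if h : I ∈ (Ideal (𝓞 K))⁰ then idealChar χ ⟨I, h⟩ else 0
  map_zero' := by
    rw [dif_neg]
    exact fun h => zero_notMem_nonZeroDivisors h
  map_one' := by
    rw [dif_pos (one_mem _)]
    exact idealChar_one χ
  map_mul' I J := by
    by_cases hI : I ∈ (Ideal (𝓞 K))⁰
    · by_cases hJ : J ∈ (Ideal (𝓞 K))⁰
      · rw [dif_pos hI, dif_pos hJ, dif_pos (mul_mem hI hJ)]
        exact idealChar_mul χ ⟨I, hI⟩ ⟨J, hJ⟩
      · rw [dif_neg hJ, mul_zero, dif_neg]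
        intro h
        exact hJ (by
          rw [mem_nonZeroDivisors_iff_ne_zero] at h ⊢
          exact right_ne_zero_of_mul h)
    · rw [dif_neg hI, zero_mul, dif_neg]
      intro h
      exact hI (by
        rw [mem_nonZeroDivisors_iff_ne_zero] at h ⊢
        exact left_ne_zero_of_mul h)

lemma normChar_apply_of_mem {I : Ideal (𝓞 K)} (h : I ∈ (Ideal (𝓞 K))⁰) :
    normChar K χ I = idealChar χ ⟨I, h⟩ := dif_pos h

lemma normChar_coe (I : (Ideal (𝓞 K))⁰) : normChar K χ (I : Ideal (𝓞 K)) = idealChar χ I :=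
  normChar_apply_of_mem K χ I.2

variable [NeZero m]

lemma norm_normChar_le_one (I : Ideal (𝓞 K)) : ‖normChar K χ I‖ ≤ 1 := by
  by_cases h : I ∈ (Ideal (𝓞 K))⁰
  · rw [normChar_apply_of_mem K χ h]
    exact norm_idealChar_le χ _
  · have : normChar K χ I = 0 := dif_neg h
    rw [this, norm_zero]
    exact zero_le_one

/-- the local term `χ(N v) (N v)^(-s)` at a prime. -/
def localTerm (s : ℝ) (v : HeightOneSpectrum (𝓞 K)) : ℂ :=
  normChar K χ v.asIdeal * ((primeNorm v ^ (-s) : ℝ) : ℂ)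

lemma norm_localTerm_le (s : ℝ) (v : HeightOneSpectrum (𝓞 K)) :
    ‖localTerm K χ s v‖ ≤ primeNorm v ^ (-s) := by
  unfold localTerm
  rw [norm_mul, Complex.norm_real, Real.norm_of_nonneg (primeNorm_rpow_nonneg v _)]
  exact mul_le_of_le_one_left (primeNorm_rpow_nonneg v _) (norm_normChar_le_one K χ _)

lemma norm_localTerm_le_half {s : ℝ} (hs : 1 ≤ s) (v : HeightOneSpectrum (𝓞 K)) :
    ‖localTerm K χ s v‖ ≤ 1 / 2 :=
  (norm_localTerm_le K χ s v).trans (primeNorm_rpow_le_half K v hs)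

lemma summable_localTerm {s : ℝ} (hs : 1 < s) : Summable (localTerm K χ s) :=
  Summable.of_norm_bounded (summable_primeNorm_rpow K hs) (norm_localTerm_le K χ s)

/-- the prime sum `∑_v χ(N v) (N v)^(-s)`. -/
def normPrimeSum (s : ℝ) : ℂ := ∑' v : HeightOneSpectrum (𝓞 K), localTerm K χ s v

/-- the logarithm of the Euler product. -/
def normLogSum (s : ℝ) : ℂ :=
  ∑' v : HeightOneSpectrum (𝓞 K), -Complex.log (1 - localTerm K χ s v)

/-- the `L`-series `∑_{I ≠ 0} χ(N I) (N I)^(-s)`. -/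
def normLSeries (s : ℝ) : ℂ := ∑' I : (Ideal (𝓞 K))⁰, (nrm I ^ (-s)) • idealChar χ I

/-- the completely multiplicative function `I ↦ χ(N I) (N I)^(-s)`. -/
def charNormPow (s : ℝ) (hs : s ≠ 0) : Ideal (𝓞 K) →*₀ ℂ :=
  normChar K χ * (Complex.ofRealHom : ℝ →+* ℂ).toMonoidWithZeroHom.comp (normPow K s hs)

lemma charNormPow_apply (s : ℝ) (hs : s ≠ 0) (I : Ideal (𝓞 K)) :
    charNormPow K χ s hs I = normChar K χ I * ((normPow K s hs I : ℝ) : ℂ) := rfl

lemma charNormPow_prime (s : ℝ) (hs : s ≠ 0) (v : HeightOneSpectrum (𝓞 K)) :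
    charNormPow K χ s hs v.asIdeal = localTerm K χ s v := rfl

lemma norm_charNormPow_le (s : ℝ) (hs : s ≠ 0) (I : Ideal (𝓞 K)) :
    ‖charNormPow K χ s hs I‖ ≤ normPow K s hs I := by
  rw [charNormPow_apply, norm_mul, Complex.norm_real,
    Real.norm_of_nonneg (normPow_nonneg K s hs I)]
  exact mul_le_of_le_one_left (normPow_nonneg K s hs I) (norm_normChar_le_one K χ I)

lemma summable_norm_charNormPow {s : ℝ} (hs : 1 < s) :
    Summable fun I : Ideal (𝓞 K) => ‖charNormPow K χ s (by linarith) I‖ :=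
  Summable.of_nonneg_of_le (fun _ => norm_nonneg _) (fun I => norm_charNormPow_le K χ s _ I)
    (summable_normPow K hs)

/-- the `L`-series as a sum over all ideals. -/
theorem normLSeries_eq_tsum {s : ℝ} (hs : s ≠ 0) :
    normLSeries K χ s = ∑' I : Ideal (𝓞 K), charNormPow K χ s hs I := by
  have hsupp : Function.support (fun I : Ideal (𝓞 K) => charNormPow K χ s hs I) ⊆
      ((Ideal (𝓞 K))⁰ : Set (Ideal (𝓞 K))) := by
    intro I hI
    by_contra h
    apply hI
    show charNormPow K χ s hs I = 0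
    have h0 : normChar K χ I = 0 := dif_neg h
    rw [charNormPow_apply, h0, zero_mul]
  rw [← tsum_subtype_eq_of_support_subset hsupp]
  refine tsum_congr fun I => ?_
  show _ = charNormPow K χ s hs (I : Ideal (𝓞 K))
  rw [charNormPow_apply, normChar_coe, normPow_apply, Complex.real_smul, mul_comm]

/-- **Euler product of `L(s, χ ∘ N)`, exponential form.** -/
theorem normLSeries_eq_exp {s : ℝ} (hs : 1 < s) :
    normLSeries K χ s = Complex.exp (normLogSum K χ s) := by
  rw [normLSeries_eq_tsum K χ (by linarith : s ≠ 0)]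
  exact (exp_tsum_primeIdeals_log_eq_tsum (summable_norm_charNormPow K χ hs)).symm

theorem normLSeries_ne_zero {s : ℝ} (hs : 1 < s) : normLSeries K χ s ≠ 0 := by
  rw [normLSeries_eq_exp K χ hs]
  exact Complex.exp_ne_zero _

/-- `‖log L(s, χ ∘ N) - ∑_v χ(N v) N v ^ (-s)‖ ≤ ∑_v N v ^ (-2)` for `s > 1`. -/
theorem norm_normLogSum_sub_le {s : ℝ} (hs : 1 < s) :
    ‖normLogSum K χ s - normPrimeSum K χ s‖ ≤ primeZetaTwo K := by
  set z : HeightOneSpectrum (𝓞 K) → ℂ := localTerm K χ s with hz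
  have hzsum : Summable z := summable_localTerm K χ hs
  have hlogsum : Summable fun v => -Complex.log (1 - z v) := hzsum.clog_one_sub.neg
  have hsum2 : Summable fun v : HeightOneSpectrum (𝓞 K) => primeNorm v ^ (-(2 : ℝ)) :=
    summable_primeNorm_rpow K (by norm_num)
  have hbound : ∀ v, ‖-Complex.log (1 - z v) - z v‖ ≤ primeNorm v ^ (-(2 : ℝ)) := by
    intro v
    refine (norm_neg_log_one_sub_sub_self_le (norm_localTerm_le_half K χ hs.le v)).trans ?_
    have h1 : ‖z v‖ ^ 2 ≤ (primeNorm v ^ (-s)) ^ 2 :=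
      pow_le_pow_left₀ (norm_nonneg _) (norm_localTerm_le K χ s v) 2
    refine h1.trans ?_
    rw [← Real.rpow_natCast, ← Real.rpow_mul (primeNorm_pos v).le]
    apply Real.rpow_le_rpow_of_exponent_le (one_lt_primeNorm v).le
    push_cast
    linarith
  have h2 : (∑' v, -Complex.log (1 - z v)) - ∑' v, z v = ∑' v, (-Complex.log (1 - z v) - z v) :=
    (hlogsum.tsum_sub hzsum).symm
  unfold normLogSum normPrimeSum
  rw [h2]
  exact tsum_of_norm_bounded hsum2.hasSum hbound

/-! ### Continuity of the logarithm on `(1, 2]` -/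

lemma continuous_localTerm (v : HeightOneSpectrum (𝓞 K)) :
    Continuous fun s : ℝ => localTerm K χ s v := by
  unfold localTerm
  refine continuous_const.mul (Complex.continuous_ofReal.comp ?_)
  exact (Real.continuous_const_rpow (primeNorm_pos v).ne').comp continuous_neg

lemma norm_neg_log_one_sub_le {z : ℂ} (hz : ‖z‖ ≤ 1 / 2) :
    ‖-Complex.log (1 - z)‖ ≤ 3 / 2 * ‖z‖ := by
  have h1 := norm_neg_log_one_sub_sub_self_le hz
  have h2 : ‖-Complex.log (1 - z)‖ ≤ ‖-Complex.log (1 - z) - z‖ + ‖z‖ := by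
    have := norm_add_le (-Complex.log (1 - z) - z) z
    rwa [sub_add_cancel] at this
  have h3 : ‖z‖ ^ 2 ≤ 1 / 2 * ‖z‖ := by
    rw [sq]; exact mul_le_mul_of_nonneg_right hz (norm_nonneg _)
  linarith

lemma continuousOn_neg_log_localTerm (v : HeightOneSpectrum (𝓞 K)) :
    ContinuousOn (fun s : ℝ => -Complex.log (1 - localTerm K χ s v)) (Set.Ici 1) := by
  refine ContinuousOn.neg ?_
  refine ContinuousOn.clog ((continuous_const.sub (continuous_localTerm K χ v)).continuousOn) ?_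
  intro s hs
  rw [Complex.mem_slitPlane_iff]
  left
  have h1 := norm_localTerm_le_half K χ (Set.mem_Ici.mp hs) v
  have h2 : (localTerm K χ s v).re ≤ 1 / 2 := (Complex.re_le_norm _).trans h1
  rw [Complex.sub_re, Complex.one_re]
  linarith

/-- the logarithm of the Euler product is continuous on `(1, 2]`. -/
theorem continuousOn_normLogSum : ContinuousOn (normLogSum K χ) (Set.Ioc 1 2) := by
  intro s₀ hs₀
  set ε : ℝ := (s₀ - 1) / 2 with hε
  have hε0 : 0 < ε := by rw [hε]; linarith [hs₀.1]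
  have hcont : ContinuousOn (normLogSum K χ) (Set.Icc (1 + ε) 2) := by
    unfold normLogSum
    refine continuousOn_tsum (u := fun v => 3 / 2 * primeNorm v ^ (-(1 + ε)))
      (fun v => (continuousOn_neg_log_localTerm K χ v).mono fun s hs => ?_)
      ((summable_primeNorm_rpow K (by linarith)).mul_left _) fun v s hs => ?_
    · exact Set.mem_Ici.mpr (by linarith [hs.1])
    · have hs1 : 1 ≤ s := by linarith [hs.1]
      refine (norm_neg_log_one_sub_le (norm_localTerm_le_half K χ hs1 v)).trans ?_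
      refine mul_le_mul_of_nonneg_left ((norm_localTerm_le K χ s v).trans ?_) (by norm_num)
      exact Real.rpow_le_rpow_of_exponent_le (one_lt_primeNorm v).le (by linarith [hs.1])
  have hmem : Set.Icc (1 + ε) 2 ∈ 𝓝[Set.Ioc 1 2] s₀ := by
    have h1 : Set.Ioi (1 + ε) ∈ 𝓝 s₀ := Ioi_mem_nhds (by rw [hε]; linarith [hs₀.1])
    refine Filter.mem_of_superset (inter_mem_nhdsWithin _ h1) ?_
    rintro s ⟨hs1, hs2⟩
    exact ⟨(Set.mem_Ioi.mp hs2).le, hs1.2⟩
  have hs₀mem : s₀ ∈ Set.Icc (1 + ε) 2 := ⟨by rw [hε]; linarith [hs₀.1], hs₀.2⟩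
  exact (hcont s₀ hs₀mem).mono_of_mem_nhdsWithin hmem

/-! ### Partial sums and continuous extension to `[1, 2]` -/

/-- the coefficients of the Dirichlet series `L(s, χ ∘ N)`. -/
def normCoeff (i : ℕ) : ℂ := ∑ I ∈ idealsEQ K (i + 1), idealChar χ I

lemma sum_range_normCoeff (n : ℕ) :
    ∑ i ∈ range n, normCoeff K χ i = ∑ I ∈ idealsLE K n, idealChar χ I :=
  sum_range_sum_idealsEQ n (idealChar χ)

lemma summable_normLSeries {s : ℝ} (hs : 1 < s) :
    Summable fun I : (Ideal (𝓞 K))⁰ => (nrm I ^ (-s)) • idealChar χ I := by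
  refine Summable.of_norm_bounded (summable_nrm_rpow hs) fun I => ?_
  rw [norm_smul, Real.norm_of_nonneg (Real.rpow_nonneg (nrm_pos I).le _)]
  exact mul_le_of_le_one_right (Real.rpow_nonneg (nrm_pos I).le _) (norm_idealChar_le χ I)

/-- the Dirichlet partial sums converge to `L(s, χ ∘ N)` for `s > 1`. -/
theorem tendsto_partial_normLSeries {s : ℝ} (hs : 1 < s) :
    Tendsto (fun N : ℕ => ∑ i ∈ range N, (((i : ℝ) + 1) ^ (-s)) • normCoeff K χ i) atTop
      (𝓝 (normLSeries K χ s)) := by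
  have h1 : Tendsto (fun N : ℕ => ∑ I ∈ idealsLE K N, (nrm I ^ (-s)) • idealChar χ I)
      atTop (𝓝 (normLSeries K χ s)) :=
    (summable_normLSeries K χ hs).hasSum.comp tendsto_idealsLE
  refine h1.congr fun N => ?_
  have hw := sum_idealsLE_weight (K := K) (fun m : ℕ => (m : ℝ) ^ (-s)) N (idealChar χ)
  simp only [Nat.cast_add, Nat.cast_one] at hw
  rw [hw]
  rfl

/-- **Continuous extension**: if the partial sums of `χ ∘ N` over ideals are `O(n ^ θ)` then
`L(s, χ ∘ N)` extends to a continuous function on `[1, 2]`. -/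
theorem exists_continuousOn_normLSeries
    (hW : ∃ B : ℝ, 0 ≤ B ∧ ∀ n : ℕ, 1 ≤ n →
      ‖∑ I ∈ idealsLE K n, idealChar χ I‖ ≤ B * (n : ℝ) ^ theta K) :
    ∃ f : ℝ → ℂ, ContinuousOn f (Set.Icc 1 2) ∧
      ∀ s ∈ Set.Ioc (1 : ℝ) 2, f s = normLSeries K χ s := by
  obtain ⟨B, hB0, hB⟩ := hW
  have hb : ∀ n : ℕ, ‖∑ i ∈ range (n + 1), normCoeff K χ i‖ ≤ B * ((n : ℝ) + 1) ^ theta K := by
    intro n
    rw [sum_range_normCoeff]
    have := hB (n + 1) (by omega)
    rwa [Nat.cast_add, Nat.cast_one] at this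
  obtain ⟨f, hf, hlim⟩ := exists_continuousOn_dirichlet (normCoeff K χ) theta_lt_one hb
  refine ⟨f, hf, fun s hs => ?_⟩
  exact tendsto_nhds_unique (hlim s ⟨hs.1.le, hs.2⟩) (tendsto_partial_normLSeries K χ hs.1)

/-- `L(s, χ ∘ N)` is bounded on `(1, 2]` when the partial sums of `χ ∘ N` have a power saving. -/
theorem exists_bound_norm_normLSeries
    (hW : ∃ B : ℝ, 0 ≤ B ∧ ∀ n : ℕ, 1 ≤ n →
      ‖∑ I ∈ idealsLE K n, idealChar χ I‖ ≤ B * (n : ℝ) ^ theta K) :
    ∃ M : ℝ, 0 < M ∧ ∀ s ∈ Set.Ioc (1 : ℝ) 2, ‖normLSeries K χ s‖ ≤ M := by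
  obtain ⟨f, hf, hfs⟩ := exists_continuousOn_normLSeries K χ hW
  obtain ⟨M, hM⟩ := isCompact_Icc.exists_bound_of_continuousOn hf
  refine ⟨|M| + 1, by positivity, fun s hs => ?_⟩
  rw [← hfs s hs]
  have := hM s ⟨hs.1.le, hs.2⟩
  linarith [le_abs_self M]

/-- `Re ∑_v χ(N v) N v ^ (-s)` is bounded above on `(1, 2]` when the partial sums of `χ ∘ N` have
a power saving. -/
theorem exists_upper_bound_normPrimeSum_re
    (hW : ∃ B : ℝ, 0 ≤ B ∧ ∀ n : ℕ, 1 ≤ n →
      ‖∑ I ∈ idealsLE K n, idealChar χ I‖ ≤ B * (n : ℝ) ^ theta K) :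
    ∃ B : ℝ, ∀ s ∈ Set.Ioc (1 : ℝ) 2, (normPrimeSum K χ s).re ≤ B := by
  obtain ⟨M, hM0, hM⟩ := exists_bound_norm_normLSeries K χ hW
  refine ⟨Real.log M + primeZetaTwo K, fun s hs => ?_⟩
  have h1 := norm_normLogSum_sub_le K χ hs.1
  have h2 : (normLogSum K χ s).re = Real.log ‖normLSeries K χ s‖ := by
    rw [normLSeries_eq_exp K χ hs.1, Complex.norm_exp, Real.log_exp]
  have hpos : 0 < ‖normLSeries K χ s‖ := norm_pos_iff.mpr (normLSeries_ne_zero K χ hs.1)
  have h3 : Real.log ‖normLSeries K χ s‖ ≤ Real.log M := Real.log_le_log hpos (hM s hs)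
  have h4 : |(normLogSum K χ s - normPrimeSum K χ s).re| ≤ primeZetaTwo K :=
    (Complex.abs_re_le_norm _).trans h1
  rw [Complex.sub_re] at h4
  have h5 := (abs_le.mp h4).1
  linarith

/-- `log ‖L(s, χ ∘ N)‖ ≤ Re ∑_v χ(N v) N v ^ (-s) + ∑_v N v ^ (-2)`. -/
theorem log_norm_normLSeries_le {s : ℝ} (hs : 1 < s) :
    (normPrimeSum K χ s).re - primeZetaTwo K ≤ Real.log ‖normLSeries K χ s‖ := by
  have h1 := norm_normLogSum_sub_le K χ hs
  have h2 : (normLogSum K χ s).re = Real.log ‖normLSeries K χ s‖ := by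
    rw [normLSeries_eq_exp K χ hs, Complex.norm_exp, Real.log_exp]
  have h4 : |(normLogSum K χ s - normPrimeSum K χ s).re| ≤ primeZetaTwo K :=
    (Complex.abs_re_le_norm _).trans h1
  rw [Complex.sub_re] at h4
  have h5 := (abs_le.mp h4).1
  linarith

/-- **The prime sum is bounded** (real and imaginary part) on `(1, 2]`, when the partial sums of
`χ ∘ N` have a power saving and `L(s, χ ∘ N)` is bounded away from `0`. -/
theorem exists_bound_norm_normPrimeSum
    (hW : ∃ B : ℝ, 0 ≤ B ∧ ∀ n : ℕ, 1 ≤ n →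
      ‖∑ I ∈ idealsLE K n, idealChar χ I‖ ≤ B * (n : ℝ) ^ theta K)
    (hlow : ∃ c : ℝ, 0 < c ∧ ∀ s ∈ Set.Ioc (1 : ℝ) 2, c ≤ ‖normLSeries K χ s‖) :
    ∃ C : ℝ, ∀ s ∈ Set.Ioc (1 : ℝ) 2, ‖normPrimeSum K χ s‖ ≤ C := by
  obtain ⟨f, hf, hfs⟩ := exists_continuousOn_normLSeries K χ hW
  obtain ⟨c, hc0, hc⟩ := hlow
  have hf1 : f 1 ≠ 0 := by
    have hcw : ContinuousWithinAt f (Set.Icc 1 2) 1 := hf 1 (Set.left_mem_Icc.mpr one_le_two)
    have hcw' : ContinuousWithinAt f (Set.Ioc 1 2) 1 := hcw.mono Set.Ioc_subset_Icc_self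
    have hne : (𝓝[Set.Ioc (1 : ℝ) 2] 1).NeBot := by
      rw [nhdsWithin_Ioc_eq_nhdsGT (by norm_num : (1 : ℝ) < 2)]
      infer_instance
    have hlim : Tendsto (fun s => ‖f s‖) (𝓝[Set.Ioc (1 : ℝ) 2] 1) (𝓝 ‖f 1‖) := hcw'.norm
    have hev : ∀ᶠ s in 𝓝[Set.Ioc (1 : ℝ) 2] 1, c ≤ ‖f s‖ := by
      filter_upwards [self_mem_nhdsWithin] with s hs
      rw [hfs s hs]
      exact hc s hs
    have := ge_of_tendsto hlim hev
    intro h0
    rw [h0, norm_zero] at this
    linarith
  obtain ⟨C, hC⟩ := bounded_of_exp_eq (continuousOn_normLogSum K χ) hf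
    (fun s hs => by rw [hfs s hs, normLSeries_eq_exp K χ hs.1]) hf1
  refine ⟨C + primeZetaTwo K, fun s hs => ?_⟩
  have h1 := norm_normLogSum_sub_le K χ hs.1
  have h2 : normPrimeSum K χ s = normLogSum K χ s - (normLogSum K χ s - normPrimeSum K χ s) := by
    ring
  rw [h2]
  exact (norm_sub_le _ _).trans (add_le_add (hC s hs) h1)

end Fermat.Agent.S48lib.Cheb
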